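import Fermat.Agent.SelbergWeil.Shift
import Fermat.Agent.SelbergHadamard.SelfDual

/-!
# The sum of a transform over the zeros, from the partial fractions

If `X'/X` is `O ((1 + |t|) ^ (1/4))` on `re s = c > 1`, then `∑ m / (1 + |γ|) ^ (3/2)` converges,
the partial fractions may be integrated term by term against a transform `Φ`, and `∑ m Φ ρ` is the
difference of the integrals of `Φ X'/X` on the two lines.
-/

set_option autoImplicit false

noncomputable section

open Complex MeasureTheory Filter Topology Set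
open scoped Real ComplexConjugate
open FA.WeilExplicit (IsTest testTransform)
open FA.DedekindHadamard (fMult)
open FA.SelbergHadamard (IsSelfDual reTerm)

namespace FA.SelbergWeil

variable {X : ℂ → ℂ} {g : ℝ → ℂ} {c A : ℝ}

/-- `X'/X` is moderate on `re s = c`. -/
def LineBound (X : ℂ → ℂ) (c A : ℝ) : Prop :=
  1 < c ∧ 0 ≤ A ∧ ∀ t : ℝ, ‖logDeriv X ((c : ℂ) + t * I)‖ ≤ A * (1 + |t|) ^ (1 / 4 : ℝ)

theorem sum_lorentz_le (hX : IsSelfDual X) (hA : LineBound X c A) (S : Finset ℂ) (t : ℝ) :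
    ∑ ρ ∈ S, (fMult X ρ : ℝ) * (c ^ 2 + (t - ρ.im) ^ 2)⁻¹ ≤
      A / (c - 1) * (1 + |t|) ^ (1 / 4 : ℝ) := by
  obtain ⟨hc, hA0, hD⟩ := hA
  obtain ⟨s, hs⟩ : ∃ s, s = (c : ℂ) + t * I := ⟨_, rfl⟩
  have hne : X s ≠ 0 := hX.ne_zero s (by simpa [hs] using hc)
  have hsum := hX.hasSum_reTerm hne
  have hterm : ∀ ρ, 0 ≤ reTerm X s ρ ∧
      (c - 1) * ((fMult X ρ : ℝ) * (c ^ 2 + (t - ρ.im) ^ 2)⁻¹) ≤ reTerm X s ρ := fun ρ => by
    rw [reTerm]
    by_cases hm : fMult X ρ = 0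
    · simp [hm]
    obtain ⟨h0, h1⟩ := hX.zero_strip (hX.mult_ne_zero_iff.1 hm)
    have hre : (s - ρ).re = c - ρ.re := by simp [hs]
    have him : (s - ρ).im = t - ρ.im := by simp [hs]
    rw [inv_re, normSq_apply, hre, him]
    refine ⟨mul_nonneg (Nat.cast_nonneg _) (div_nonneg (by linarith)
      (add_nonneg (mul_self_nonneg _) (mul_self_nonneg _))), ?_⟩
    rw [mul_left_comm]
    refine mul_le_mul_of_nonneg_left ?_ (Nat.cast_nonneg _)
    rw [← div_eq_mul_inv]
    refine div_le_div₀ (by linarith) (by linarith) ?_ ?_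
    · have hpos : 0 < c - ρ.re := by linarith
      nlinarith [mul_pos hpos hpos, mul_self_nonneg (t - ρ.im)]
    · nlinarith
  have h1 : (c - 1) * ∑ ρ ∈ S, (fMult X ρ : ℝ) * (c ^ 2 + (t - ρ.im) ^ 2)⁻¹ ≤
      A * (1 + |t|) ^ (1 / 4 : ℝ) := by
    rw [Finset.mul_sum]
    refine ((Finset.sum_le_sum fun ρ _ => (hterm ρ).2).trans
      (sum_le_hasSum S (fun ρ _ => (hterm ρ).1) hsum)).trans ((re_le_norm _).trans ?_)
    rw [hs]
    exact hD t
  rw [div_mul_eq_mul_div, le_div_iff₀ (by linarith)]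
  linarith

/-- **`∑ m / (1 + |γ|) ^ (3/2)` converges.** -/
theorem summable_weight32 (hX : IsSelfDual X) (hA : LineBound X c A) :
    Summable fun ρ : ℂ => (fMult X ρ : ℝ) * (1 + |ρ.im|) ^ (-(3 / 2 : ℝ)) := by
  have hc := hA.1
  obtain ⟨W, hW⟩ : ∃ W, W = A / (c - 1) * ∫ t : ℝ, (1 + |t|) ^ (-(5 / 4 : ℝ)) := ⟨_, rfl⟩
  obtain ⟨d, hd⟩ : ∃ d, d = (2 : ℝ) ^ (-(3 / 2 : ℝ)) * (c ^ 2 + 1)⁻¹ := ⟨_, rfl⟩
  have hd0 : 0 < d := by rw [hd]; positivity
  refine summable_of_sum_le (c := W / d) (fun ρ => by positivity) fun S => ?_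
  obtain ⟨F, hF⟩ : ∃ F : ℂ → ℝ → ℝ, F = fun ρ t => (fMult X ρ : ℝ) *
      (c ^ 2 + (t - ρ.im) ^ 2)⁻¹ * (1 + |t|) ^ (-(3 / 2 : ℝ)) := ⟨_, rfl⟩
  have hFc : ∀ ρ, Continuous (F ρ) := fun ρ => by
    rw [hF]
    exact (continuous_const.mul ((by fun_prop : Continuous fun t : ℝ =>
      c ^ 2 + (t - ρ.im) ^ 2).inv₀ fun t => by positivity)).mul
        ((by fun_prop : Continuous fun t : ℝ => 1 + |t|).rpow_const fun t => Or.inl (by positivity))
  have hFi : ∀ ρ, Integrable (F ρ) := fun ρ => by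
    refine ((integrable_rpow_weight (r := 3 / 2) (by norm_num)).const_mul
      ((fMult X ρ : ℝ) * (c ^ 2)⁻¹)).mono' (hFc ρ).aestronglyMeasurable
        (Eventually.of_forall fun t => ?_)
    rw [hF, Real.norm_of_nonneg (by positivity)]
    refine mul_le_mul_of_nonneg_right (mul_le_mul_of_nonneg_left ?_ (Nat.cast_nonneg _))
      (by positivity)
    exact inv_anti₀ (by positivity) (by nlinarith)
  rw [le_div_iff₀ hd0, Finset.sum_mul]
  calc ∑ ρ ∈ S, (fMult X ρ : ℝ) * (1 + |ρ.im|) ^ (-(3 / 2 : ℝ)) * d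
      ≤ ∑ ρ ∈ S, ∫ t : ℝ, F ρ t := Finset.sum_le_sum fun ρ _ => by
        obtain ⟨q, hq⟩ : ∃ q, q = (fMult X ρ : ℝ) * (1 + |ρ.im|) ^ (-(3 / 2 : ℝ)) * d := ⟨_, rfl⟩
        have hint : ∫ t : ℝ, (Ioc ρ.im (ρ.im + 1)).indicator (fun _ => q) t = q := by
          rw [integral_indicator_const _ measurableSet_Ioc]
          simp
        rw [← hq, ← hint]
        refine integral_mono ((integrableOn_const (measure_Ioc_lt_top.ne)).integrable_indicator
          measurableSet_Ioc) (hFi ρ) fun t => ?_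
        rw [hF]
        by_cases ht : t ∈ Ioc ρ.im (ρ.im + 1)
        · rw [indicator_of_mem ht, hq, hd, mul_assoc, ← mul_assoc _
            ((2 : ℝ) ^ (-(3 / 2 : ℝ))), ← Real.mul_rpow (by positivity) two_pos.le]
          simp only
          rw [mul_assoc, mul_comm ((c ^ 2 + (t - ρ.im) ^ 2)⁻¹)]
          refine mul_le_mul_of_nonneg_left ?_ (Nat.cast_nonneg _)
          refine mul_le_mul ?_ (inv_anti₀ (by positivity) (by nlinarith [ht.1, ht.2]))
            (by positivity) (by positivity)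
          refine Real.rpow_le_rpow_of_nonpos (by positivity) ?_ (by norm_num)
          have := abs_le.2 (⟨by linarith [ht.1], by linarith [ht.2]⟩ :
            -1 ≤ t - ρ.im ∧ t - ρ.im ≤ 1)
          linarith [abs_sub_abs_le_abs_sub t ρ.im, abs_nonneg ρ.im]
        · rw [indicator_of_notMem ht]
          positivity
    _ = ∫ t : ℝ, ∑ ρ ∈ S, F ρ t := (integral_finsetSum _ fun ρ _ => hFi ρ).symm
    _ ≤ W := by
        rw [hW, ← integral_const_mul]
        refine integral_mono (integrable_finsetSum _ fun ρ _ => hFi ρ)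
          ((integrable_rpow_weight (by norm_num)).const_mul _) fun t => ?_
        simp only [hF, ← Finset.sum_mul]
        refine (mul_le_mul_of_nonneg_right (sum_lorentz_le hX hA S t)
          (by positivity)).trans (le_of_eq ?_)
        rw [mul_assoc, ← Real.rpow_add (by positivity)]
        norm_num

theorem sq_inv_le {y : ℝ} (hy : 1 ≤ y) : (y ^ 2)⁻¹ ≤ y ^ (-(3 / 2 : ℝ)) := by
  rw [show (y ^ 2)⁻¹ = y ^ (-(2 : ℝ)) by rw [Real.rpow_neg (by linarith), Real.rpow_two]]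
  exact Real.rpow_le_rpow_of_exponent_le hy (by norm_num)

/-- **`∑ m |Φ ρ|` converges.** -/
theorem summable_norm_transform (hX : IsSelfDual X) (hA : LineBound X c A) (h : IsTest g) :
    Summable fun ρ : ℂ => ‖(fMult X ρ : ℂ) * testTransform g ρ‖ := by
  obtain ⟨C, hC, hΦ⟩ := exists_transform_le h 1
  refine ((summable_weight32 hX hA).mul_left C).of_nonneg_of_le (fun ρ => norm_nonneg _)
    fun ρ => ?_
  rw [norm_mul, Complex.norm_natCast, mul_left_comm]
  by_cases hm : fMult X ρ = 0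
  · simp [hm]
  obtain ⟨h0, h1⟩ := hX.zero_strip (hX.mult_ne_zero_iff.1 hm)
  refine mul_le_mul_of_nonneg_left ((hΦ ρ (by rwa [abs_of_nonneg h0])).trans ?_) (Nat.cast_nonneg _)
  rw [div_eq_mul_inv]
  exact mul_le_mul_of_nonneg_left (sq_inv_le (le_add_of_nonneg_right (abs_nonneg _))) hC

theorem three_inv_le {a b G : ℝ} (ha : 1 ≤ a) (hb : 1 ≤ b) (hG : 1 ≤ G) (h : G ≤ a + b) :
    (a * b * G)⁻¹ ≤
      2 * G ^ (-(3 / 2 : ℝ)) * (a ^ (-(3 / 2 : ℝ)) + b ^ (-(3 / 2 : ℝ))) := by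
  have e : ∀ x : ℝ, 1 ≤ x → x ^ (-(3 / 2 : ℝ)) = (x * √x)⁻¹ := fun x hx => by
    rw [Real.rpow_neg (by linarith), Real.sqrt_eq_rpow, ← Real.rpow_one_add' (by linarith)
      (by norm_num)]
    norm_num
  have key : ∀ x y : ℝ, 1 ≤ x → 1 ≤ y → G ≤ x + y → x ≤ y →
      (x * y * G)⁻¹ ≤ 2 * (G * √G)⁻¹ * (x * √x)⁻¹ := fun x y hx hy hxy hle => by
    have h1 : √x * √G ≤ 2 * y := by
      nlinarith [sq_nonneg (√x - √G), Real.sq_sqrt (show 0 ≤ x by linarith),
        Real.sq_sqrt (show 0 ≤ G by linarith)]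
    have hp : 0 < G * √G * (x * √x) := by positivity
    rw [mul_assoc 2, ← mul_inv, inv_eq_one_div, ← div_eq_mul_inv,
      div_le_div_iff₀ (by positivity) hp]
    nlinarith [mul_le_mul_of_nonneg_left h1 (show 0 ≤ x * G by positivity)]
  rw [e G hG, e a ha, e b hb, mul_add]
  rcases le_total a b with hab | hab
  · exact (key a b ha hb h hab).trans (le_add_of_nonneg_right (by positivity))
  · rw [mul_comm a b]
    exact (key b a hb ha (by linarith) hab).trans (le_add_of_nonneg_left (by positivity))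

/-- The integrand of one zero on one line. -/
def pairTerm (g : ℝ → ℂ) (σ : ℝ) (ρ : ℂ) (t : ℝ) : ℂ :=
  testTransform g ((σ : ℂ) + t * I) * (((σ : ℂ) + t * I - ρ)⁻¹ + (ρ - 2)⁻¹)

theorem exists_pairTerm_le (h : IsTest g) {σ : ℝ} (hσ : σ < 0 ∨ 1 < σ) :
    ∃ K, 0 ≤ K ∧ ∀ (ρ : ℂ) (t : ℝ), 0 ≤ ρ.re → ρ.re ≤ 1 →
      ‖pairTerm g σ ρ t‖ ≤ K * (1 + |ρ.im|) ^ (-(3 / 2 : ℝ)) *
        ((1 + |t|) ^ (-(3 / 2 : ℝ)) + (1 + |t - ρ.im|) ^ (-(3 / 2 : ℝ))) := by
  obtain ⟨C, hC, hΦ⟩ := exists_transform_le h |σ|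
  obtain ⟨d, hd⟩ : ∃ d, d = min (min |σ| |σ - 1|) 1 := ⟨_, rfl⟩
  have hd0 : 0 < d := by
    rw [hd]
    refine lt_min (lt_min (abs_pos.2 fun e => ?_) (abs_pos.2 fun e => ?_)) one_pos <;>
      rcases hσ with hσ | hσ <;> linarith
  refine ⟨C * (|σ| + 3) * (4 / d) * 2, by positivity, fun ρ t h0 h1 => ?_⟩
  obtain ⟨s, hs⟩ : ∃ s, s = (σ : ℂ) + t * I := ⟨_, rfl⟩
  have hre : s.re = σ := by simp [hs]
  have him : s.im = t := by simp [hs]
  have hsρ : d / 2 * (1 + |t - ρ.im|) ≤ ‖s - ρ‖ := by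
    have e1 : d ≤ |σ - ρ.re| := by
      rw [hd]
      refine (min_le_left _ _).trans ?_
      rcases hσ with hσ | hσ
      · refine (min_le_left _ _).trans ?_
        rw [abs_of_neg hσ, abs_of_neg (by linarith)]
        linarith
      · refine (min_le_right _ _).trans ?_
        rw [abs_of_pos (by linarith), abs_of_pos (by linarith)]
        linarith
    have e2 := abs_re_le_norm (s - ρ)
    have e3 := abs_im_le_norm (s - ρ)
    rw [sub_re, hre] at e2
    rw [sub_im, him] at e3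
    nlinarith [min_le_right (min |σ| |σ - 1|) 1, abs_nonneg (t - ρ.im)]
  have hρ2 : (1 + |ρ.im|) / 2 ≤ ‖ρ - 2‖ := by
    have e2 := abs_re_le_norm (ρ - 2)
    have e3 := abs_im_le_norm (ρ - 2)
    rw [sub_re, re_ofNat, abs_of_neg (by linarith)] at e2
    rw [sub_im, im_ofNat, sub_zero] at e3
    linarith
  have hs2 : ‖s - 2‖ ≤ (|σ| + 3) * (1 + |t|) := by
    refine (norm_le_abs_re_add_abs_im _).trans ?_
    rw [sub_re, sub_im, hre, him, re_ofNat, im_ofNat, sub_zero]
    nlinarith [abs_sub σ 2, abs_two (α := ℝ), abs_nonneg σ, abs_nonneg t]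
  have hn1 : 0 < ‖s - ρ‖ := lt_of_lt_of_le (by positivity) hsρ
  have hn2 : 0 < ‖ρ - 2‖ := lt_of_lt_of_le (by positivity) hρ2
  have e : pairTerm g σ ρ t = testTransform g s * ((s - 2) / ((s - ρ) * (ρ - 2))) := by
    rw [pairTerm, ← hs]
    congr 1
    field_simp [norm_pos_iff.1 hn1, norm_pos_iff.1 hn2]
    ring
  have hΦ' := hΦ s (by rw [hre])
  rw [him] at hΦ'
  have hab : 1 + |ρ.im| ≤ (1 + |t|) + (1 + |t - ρ.im|) := by
    linarith [abs_sub_abs_le_abs_sub ρ.im t, abs_sub_comm ρ.im t]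
  calc ‖pairTerm g σ ρ t‖
      = ‖testTransform g s‖ * (‖s - 2‖ / (‖s - ρ‖ * ‖ρ - 2‖)) := by
        rw [e, norm_mul, norm_div, norm_mul]
    _ ≤ C / (1 + |t|) ^ 2 * ((|σ| + 3) * (1 + |t|) /
        (d / 2 * (1 + |t - ρ.im|) * ((1 + |ρ.im|) / 2))) := by
        gcongr
    _ = C * (|σ| + 3) * (4 / d) *
        ((1 + |t|) * (1 + |t - ρ.im|) * (1 + |ρ.im|))⁻¹ := by
        have := hd0.ne'
        field_simp
        ring
    _ ≤ C * (|σ| + 3) * (4 / d) * (2 * (1 + |ρ.im|) ^ (-(3 / 2 : ℝ)) *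
        ((1 + |t|) ^ (-(3 / 2 : ℝ)) + (1 + |t - ρ.im|) ^ (-(3 / 2 : ℝ)))) :=
        mul_le_mul_of_nonneg_left (three_inv_le (le_add_of_nonneg_right (abs_nonneg _))
          (le_add_of_nonneg_right (abs_nonneg _)) (le_add_of_nonneg_right (abs_nonneg _)) hab)
          (by positivity)
    _ = _ := by ring

theorem integrable_pairTerm (h : IsTest g) {σ : ℝ} {ρ : ℂ} (hσ : σ ≠ ρ.re) :
    Integrable (pairTerm g σ ρ) := by
  unfold pairTerm
  simp only [mul_add]
  exact (integrable_pole h hσ).add ((integrable_line h σ).mul_const _)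

theorem continuous_logDeriv_line (hX : IsSelfDual X) {σ : ℝ}
    (hσ : ∀ t : ℝ, X ((σ : ℂ) + t * I) ≠ 0) :
    Continuous fun t : ℝ => logDeriv X ((σ : ℂ) + t * I) :=
  continuous_iff_continuousAt.2 fun t =>
    ContinuousAt.comp' (g := logDeriv X) (f := fun u : ℝ => (σ : ℂ) + (u : ℂ) * I)
      (((hX.differentiable.analyticAt _).deriv.continuousAt).div
        (hX.differentiable _).continuousAt (hσ t)) (by fun_prop)

/-- The left line mirrors the right one. -/
theorem logDeriv_left_line (hX : IsSelfDual X) (c t : ℝ) :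
    logDeriv X (((1 - c : ℝ) : ℂ) + t * I) = -conj (logDeriv X ((c : ℂ) + t * I)) := by
  rw [← hX.logDeriv_mirror]
  congr 1
  simp only [map_add, map_mul, conj_ofReal, conj_I]
  push_cast
  ring

/-- **`∑ m Φ ρ` as two line integrals.** -/
theorem hasSum_transform (hX : IsSelfDual X) (hA : LineBound X c A) (h : IsTest g) :
    HasSum (fun ρ : ℂ => (fMult X ρ : ℂ) * testTransform g ρ)
      (((∫ t : ℝ, testTransform g ((c : ℂ) + t * I) * logDeriv X ((c : ℂ) + t * I)) +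
        ∫ t : ℝ, testTransform g (((1 - c : ℝ) : ℂ) + t * I) *
          conj (logDeriv X ((c : ℂ) + t * I))) / (2 * π)) := by
  classical
  obtain ⟨hc, hA0, hD⟩ := hA
  have hne : ∀ t : ℝ, X ((c : ℂ) + t * I) ≠ 0 := fun t => hX.ne_zero _ (by simpa using hc)
  have hne' : ∀ t : ℝ, X (((1 - c : ℝ) : ℂ) + t * I) ≠ 0 := fun t e => by
    have := (hX.zero_strip e).1
    simp at this
    linarith
  obtain ⟨K, hK, hpair⟩ := exists_pairTerm_le h (σ := c) (Or.inr hc)
  obtain ⟨K', hK', hpair'⟩ := exists_pairTerm_le h (σ := 1 - c) (Or.inl (by linarith))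
  have hw := summable_weight32 hX ⟨hc, hA0, hD⟩
  have : Countable {ρ : ℂ // fMult X ρ ≠ 0} := by
    refine Set.Countable.to_subtype (hw.countable_support.mono fun ρ (hρ : fMult X ρ ≠ 0) => ?_)
    exact mul_ne_zero (Nat.cast_ne_zero.2 hρ) (Real.rpow_pos_of_pos (by positivity) _).ne'
  obtain ⟨F, hF⟩ : ∃ F : {ρ : ℂ // fMult X ρ ≠ 0} → ℝ → ℂ,
      F = fun (ρ : {ρ : ℂ // fMult X ρ ≠ 0}) t =>
      (fMult X (ρ : ℂ) : ℂ) * (pairTerm g c ρ t - pairTerm g (1 - c) ρ t) := ⟨_, rfl⟩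
  have hstrip : ∀ ρ : {ρ : ℂ // fMult X ρ ≠ 0}, 0 ≤ (ρ : ℂ).re ∧ (ρ : ℂ).re ≤ 1 := fun ρ =>
    hX.zero_strip (hX.mult_ne_zero_iff.1 ρ.2)
  have hi : ∀ ρ : {ρ : ℂ // fMult X ρ ≠ 0}, Integrable (pairTerm g c ρ) ∧
      Integrable (pairTerm g (1 - c) ρ) := fun ρ =>
    ⟨integrable_pairTerm h (by linarith [(hstrip ρ).2]),
      integrable_pairTerm h (by linarith [(hstrip ρ).1])⟩
  have hFi : ∀ ρ, Integrable (F ρ) := fun ρ =>
    hF ▸ (((hi ρ).1.sub (hi ρ).2).const_mul _)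
  obtain ⟨W, hW⟩ : ∃ W, W = ∫ t : ℝ, (1 + |t|) ^ (-(3 / 2 : ℝ)) := ⟨_, rfl⟩
  have hw32 := integrable_rpow_weight (r := 3 / 2) (by norm_num)
  have hsumF : Summable fun ρ => ∫ t : ℝ, ‖F ρ t‖ := by
    refine ((hw.comp_injective Subtype.val_injective).mul_left ((K + K') * (2 * W))).of_nonneg_of_le
      (fun ρ => integral_nonneg fun t => norm_nonneg _) fun ρ => ?_
    obtain ⟨h0, h1⟩ := hstrip ρ
    have hcomp := hw32.comp_sub_right (ρ : ℂ).im
    obtain ⟨u, hu⟩ : ∃ u, u = (fMult X (ρ : ℂ) : ℝ) *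
        ((K + K') * (1 + |(ρ : ℂ).im|) ^ (-(3 / 2 : ℝ))) := ⟨_, rfl⟩
    refine (integral_mono (hFi ρ).norm ((hw32.add hcomp).const_mul u) fun t => ?_).trans
      (le_of_eq ?_)
    · simp only [hF, norm_mul, Complex.norm_natCast, Pi.add_apply, hu]
      rw [mul_assoc]
      refine mul_le_mul_of_nonneg_left (((norm_sub_le _ _).trans
        (add_le_add (hpair ρ t h0 h1) (hpair' ρ t h0 h1))).trans (le_of_eq ?_)) (Nat.cast_nonneg _)
      ring
    · rw [integral_const_mul]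
      simp only [Pi.add_apply]
      rw [integral_add hw32 hcomp,
        integral_sub_right_eq_self (fun t : ℝ => (1 + |t|) ^ (-(3 / 2 : ℝ))), ← hW, hu,
        Function.comp_apply]
      ring
  have hval : ∀ ρ, ∫ t : ℝ, F ρ t =
      2 * π * ((fMult X (ρ : ℂ) : ℂ) * testTransform g ρ) := fun ρ => by
    obtain ⟨h0, h1⟩ := hstrip ρ
    simp only [hF, integral_const_mul, integral_sub (hi ρ).1 (hi ρ).2]
    simp only [pairTerm, mul_add]
    rw [integral_add (integrable_pole h (by linarith)) ((integrable_line h c).mul_const _),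
      integral_add (integrable_pole h (by linarith)) ((integrable_line h (1 - c)).mul_const _),
      integral_mul_const, integral_mul_const, integral_line_eq h, integral_line_eq h,
      add_sub_add_right_eq_sub, integral_pole_sub h (by linarith) (by linarith)]
    ring
  have hpt : ∀ t : ℝ, ∑' ρ, F ρ t =
      testTransform g ((c : ℂ) + t * I) * (logDeriv X ((c : ℂ) + t * I) - logDeriv X 2) -
        testTransform g (((1 - c : ℝ) : ℂ) + t * I) *
          (logDeriv X (((1 - c : ℝ) : ℂ) + t * I) - logDeriv X 2) := fun t => by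
    have h1 := ((hX.hasSum_frac (hne t)).mul_left (testTransform g ((c : ℂ) + t * I))).sub
      ((hX.hasSum_frac (hne' t)).mul_left (testTransform g (((1 - c : ℝ) : ℂ) + t * I)))
    refine (((hasSum_subtype_iff_of_support_subset (s := {ρ : ℂ | fMult X ρ ≠ 0})
      fun ρ hρ hm => hρ ?_).2 h1).congr_fun fun ρ => ?_).tsum_eq
    · simp [show fMult X ρ = 0 from hm]
    · simp only [hF, pairTerm, Function.comp_apply]
      ring
  have hmain := hasSum_integral_of_summable_integral_norm hFi hsumF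
  simp only [hpt, hval] at hmain
  have hlc := continuous_logDeriv_line hX hne
  have hib : Integrable fun t : ℝ =>
      testTransform g ((c : ℂ) + t * I) * logDeriv X ((c : ℂ) + t * I) :=
    integrable_line_mul h c hlc hD
  have hia : Integrable fun t : ℝ =>
      testTransform g (((1 - c : ℝ) : ℂ) + t * I) * conj (logDeriv X ((c : ℂ) + t * I)) :=
    integrable_line_mul h (1 - c) (continuous_conj.comp hlc) fun t => by
      simpa only [Complex.norm_conj] using hD t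
  have e : (fun t : ℝ =>
      testTransform g ((c : ℂ) + t * I) * (logDeriv X ((c : ℂ) + t * I) - logDeriv X 2) -
        testTransform g (((1 - c : ℝ) : ℂ) + t * I) *
          (logDeriv X (((1 - c : ℝ) : ℂ) + t * I) - logDeriv X 2)) = fun t : ℝ =>
      (testTransform g ((c : ℂ) + t * I) * logDeriv X ((c : ℂ) + t * I) +
        testTransform g (((1 - c : ℝ) : ℂ) + t * I) * conj (logDeriv X ((c : ℂ) + t * I))) -
      (testTransform g ((c : ℂ) + t * I) * logDeriv X 2 -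
        testTransform g (((1 - c : ℝ) : ℂ) + t * I) * logDeriv X 2) := funext fun t => by
    rw [logDeriv_left_line hX]
    ring
  have e2 : ∫ t : ℝ, (testTransform g ((c : ℂ) + t * I) * logDeriv X 2 -
      testTransform g (((1 - c : ℝ) : ℂ) + t * I) * logDeriv X 2) = 0 := by
    rw [integral_sub ((integrable_line h c).mul_const _) ((integrable_line h _).mul_const _),
      integral_mul_const, integral_mul_const, integral_line_eq h, integral_line_eq h, sub_self]
  rw [e] at hmain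
  have hconst : Integrable fun t : ℝ => testTransform g ((c : ℂ) + t * I) * logDeriv X 2 -
      testTransform g (((1 - c : ℝ) : ℂ) + t * I) * logDeriv X 2 :=
    ((integrable_line h c).mul_const _).sub ((integrable_line h _).mul_const _)
  rw [integral_sub (hib.fun_add hia) hconst, e2, sub_zero, integral_add hib hia] at hmain
  have hπ : (2 * π : ℂ) ≠ 0 := mul_ne_zero two_ne_zero (ofReal_ne_zero.2 Real.pi_ne_zero)
  refine (hasSum_subtype_iff_of_support_subset (s := {ρ : ℂ | fMult X ρ ≠ 0})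
    fun ρ hρ hm => hρ ?_).1 ((hmain.div_const (2 * π : ℂ)).congr_fun fun ρ => ?_)
  · simp [show fMult X ρ = 0 from hm]
  · simp only [Function.comp_apply]
    rw [mul_div_cancel_left₀ _ hπ]

end FA.SelbergWeil

end
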