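import Fermat.Agent.SelbergWeil.Kernel
import Fermat.Agent.SelbergWeil.Zeros

/-!
# Weil's explicit formula in the Selberg class

The zero sum is two integrals on `re s = c` and its mirror; there the primes are integrated term by
term, and the Gamma factor is moved to `re s = 1/2`, passing the pole at `1`.
-/

set_option autoImplicit false

noncomputable section

open Complex MeasureTheory Filter Topology Set
open scoped Real ComplexConjugate
open FA.WeilExplicit (IsTest testTransform)
open FA.DedekindHadamard (fMult)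
open FA.DegreeGap (HasFunctionalEquation pt)
open FA.SelbergClass (HasEulerProduct)
open FA.SelbergHadamard (xiF isSelfDual_xiF)
open FA.SelbergLandau (lamF GoodRight lSeries_lamF_line)
open FA.ZeroOrdinates (osc norm_osc continuous_osc)

namespace FA.SelbergWeil

variable {a : ℕ → ℂ} {m : ℕ} {E : ℂ → ℂ} {r : ℕ} {lam : Fin r → ℝ} {mu : Fin r → ℂ} {Q : ℝ}
  {omega : ℂ} {g : ℝ → ℂ}

/-- `m (Φ 0 + Φ 1) - ∑ (Λ_F n g (log n) + conj (Λ_F n) g (- log n)) / √n + (1 / 2π) ∫ Φ W`. -/
def weilSide (a : ℕ → ℂ) (m : ℕ) (lam : Fin r → ℝ) (mu : Fin r → ℂ) (Q : ℝ) (g : ℝ → ℂ) : ℂ :=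
  (m : ℂ) * (testTransform g 0 + testTransform g 1) -
      (∑' n : ℕ, (lamF a n * g (Real.log n) + conj (lamF a n) * g (-Real.log n)) / (√n : ℂ)) +
    (∫ t : ℝ, testTransform g (((1 / 2 : ℝ) : ℂ) + t * I) * (archWeightF lam mu Q t : ℂ)) / (2 * π)

theorem summable_log_mul (h : IsTest g) (b : ℕ → ℂ) {ε : ℝ} (hε : |ε| = 1) :
    Summable fun n : ℕ => b n * g (ε * Real.log n) := by
  obtain ⟨R, hR⟩ := h.2.isCompact.isBounded.subset_closedBall 0
  refine summable_of_ne_finset_zero (s := Finset.range (⌈Real.exp R⌉₊ + 1)) fun n hn => ?_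
  rw [Finset.mem_range, not_lt] at hn
  rw [image_eq_zero_of_notMem_tsupport (f := g) fun hmem => ?_, mul_zero]
  have h1 := hR hmem
  rw [Metric.mem_closedBall, dist_zero_right, Real.norm_eq_abs, abs_mul, hε, one_mul] at h1
  have h2 : Real.exp R < n := lt_of_le_of_lt (Nat.le_ceil _) (by exact_mod_cast hn)
  have h3 : R < Real.log n := by
    rw [← Real.log_exp R]
    exact Real.log_lt_log (Real.exp_pos R) h2
  linarith [le_abs_self (Real.log n)]

/-- **The primes on a line.** -/
theorem integral_line_series {β : ℝ} (hg : GoodRight a β) (h : IsTest g) :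
    ∫ t : ℝ, testTransform g ((β : ℂ) + t * I) * LSeries (lamF a) (pt β t) =
      2 * π * ∑' n : ℕ, lamF a n * g (Real.log n) / (√n : ℂ) := by
  obtain ⟨b, hb⟩ : ∃ b : ℕ → ℂ, b = LSeries.term (lamF a) (β : ℂ) := ⟨_, rfl⟩
  have hbn : Summable fun n => ‖b n‖ := hb ▸ hg.summable
  have hint := integrable_line h β
  have hF : ∀ n, Integrable fun t : ℝ =>
      b n * (testTransform g ((β : ℂ) + t * I) * osc (-Real.log n) t) := fun n =>
    (hint.mul_bdd (continuous_osc _).aestronglyMeasurable
      (Eventually.of_forall fun t => (norm_osc _ t).le)).const_mul _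
  have hsum := MeasureTheory.hasSum_integral_of_summable_integral_norm hF (by
    simp only [norm_mul, norm_osc, mul_one, integral_const_mul]
    exact hbn.mul_right _)
  have e : ∀ t : ℝ, testTransform g ((β : ℂ) + t * I) * LSeries (lamF a) (pt β t) =
      ∑' n, b n * (testTransform g ((β : ℂ) + t * I) * osc (-Real.log n) t) := fun t => by
    rw [lSeries_lamF_line, ← tsum_mul_left, hb]
    exact tsum_congr fun n => by ring
  rw [integral_congr_ae (Eventually.of_forall e), ← hsum.tsum_eq, ← tsum_mul_left]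
  refine tsum_congr fun n => ?_
  rw [integral_const_mul, integral_line_osc h, hb]
  rcases eq_or_ne n 0 with rfl | hn
  · simp
  have hn' : (0 : ℝ) < n := by exact_mod_cast Nat.pos_of_ne_zero hn
  have e1 : (n : ℂ) ^ (β : ℂ) =
      (√n : ℂ) * ((Real.exp ((β - 1 / 2) * Real.log n) : ℝ) : ℂ) := by
    rw [← ofReal_natCast, ← ofReal_cpow hn'.le, Real.sqrt_eq_rpow, Real.rpow_def_of_pos hn',
      Real.rpow_def_of_pos hn', ← ofReal_mul, ← Real.exp_add]
    congr 2
    ring
  rw [LSeries.term_of_ne_zero hn, e1]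
  have h1 : (√n : ℂ) ≠ 0 := ofReal_ne_zero.2 (Real.sqrt_pos.2 hn').ne'
  have h2 : ((Real.exp ((β - 1 / 2) * Real.log n) : ℝ) : ℂ) ≠ 0 :=
    ofReal_ne_zero.2 (Real.exp_pos _).ne'
  field_simp

theorem norm_inv_sub_one_le_two {σ : ℝ} (hσ : 1 / 2 ≤ |σ - 1|) (t : ℝ) :
    ‖((σ : ℂ) + t * I - 1)⁻¹‖ ≤ 2 := by
  rw [norm_inv, show (2 : ℝ) = (1 / 2 : ℝ)⁻¹ by norm_num]
  exact inv_anti₀ (by norm_num)
    (hσ.trans (le_trans (by simp) (abs_re_le_norm ((σ : ℂ) + t * I - 1))))

theorem lineBound_xiF (h : HasFunctionalEquation a m E lam mu Q omega) {β : ℝ}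
    (hg : GoodRight a β) (hβ : 2 ≤ β) : ∃ A, LineBound (xiF m E lam mu Q omega) β A := by
  obtain ⟨A, hA0, hA⟩ := exists_restKernel_le h.lam_pos h.mu_re Q m (a := β) (b := β)
    (by linarith)
  obtain ⟨S, hS⟩ : ∃ S, S = ∑' n, ‖LSeries.term (lamF a) (β : ℂ) n‖ := ⟨_, rfl⟩
  have hS0 : 0 ≤ S := hS ▸ tsum_nonneg fun _ => norm_nonneg _
  refine ⟨m * 2 + A + S, by linarith, by positivity, fun t => ?_⟩
  have hw : 1 ≤ (1 + |t|) ^ (1 / 4 : ℝ) :=
    Real.one_le_rpow (le_add_of_nonneg_right (abs_nonneg _)) (by norm_num)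
  rw [show (β : ℂ) + t * I = pt β t from rfl, logDeriv_xiF h hg]
  refine (norm_sub_le _ _).trans ?_
  rw [add_mul, add_mul]
  refine add_le_add ((norm_add_le _ _).trans (add_le_add ?_ ?_)) ?_
  · rw [norm_mul, Complex.norm_natCast]
    refine (mul_le_mul_of_nonneg_left ?_ (Nat.cast_nonneg m)).trans
      (le_mul_of_one_le_right (by positivity) hw)
    exact norm_inv_sub_one_le_two (by rw [abs_of_pos (by linarith)]; linarith) t
  · have := hA (pt β t) (by simp [pt]) (by simp [pt])
    rwa [show (pt β t).im = t by simp [pt]] at this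
  · rw [lSeries_lamF_line]
    refine (norm_tsum_le_tsum_norm (hg.summable.congr fun n => ?_)).trans
      ((le_of_eq ?_).trans (le_mul_of_one_le_right hS0 hw))
    · rw [norm_mul, norm_osc, mul_one]
    · simp only [norm_mul, norm_osc, mul_one, hS]

/-- `m / (s - 1) + m / s + log Q + ∑ λ ψ` on `re s = 1/2`. -/
def halfKernel (m : ℕ) (lam : Fin r → ℝ) (mu : Fin r → ℂ) (Q : ℝ) (t : ℝ) : ℂ :=
  (m : ℂ) * (((1 / 2 : ℝ) : ℂ) + t * I - 1)⁻¹ +
    restKernel m lam mu Q (((1 / 2 : ℝ) : ℂ) + t * I)

theorem continuous_restKernel_line (hlam : ∀ j, 0 < lam j) (hmu : ∀ j, 0 ≤ (mu j).re) {σ : ℝ}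
    (hσ : 0 < σ) : Continuous fun t : ℝ => restKernel m lam mu Q ((σ : ℂ) + t * I) :=
  continuous_iff_continuousAt.2 fun t => ContinuousAt.comp' (g := restKernel m lam mu Q)
    (f := fun u : ℝ => (σ : ℂ) + (u : ℂ) * I)
    (differentiableAt_restKernel hlam hmu (by simpa using hσ)).continuousAt (by fun_prop)

theorem continuous_halfKernel (hlam : ∀ j, 0 < lam j) (hmu : ∀ j, 0 ≤ (mu j).re) :
    Continuous (halfKernel m lam mu Q) :=
  (continuous_const.mul (continuous_inv_sub (ρ := 1) (by norm_num))).add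
    (continuous_restKernel_line hlam hmu (by norm_num))

theorem exists_halfKernel_le (hlam : ∀ j, 0 < lam j) (hmu : ∀ j, 0 ≤ (mu j).re) :
    ∃ A : ℝ, ∀ t, ‖halfKernel m lam mu Q t‖ ≤ A * (1 + |t|) ^ (1 / 4 : ℝ) := by
  obtain ⟨A, -, hA⟩ := exists_restKernel_le hlam hmu Q m (a := 1 / 2) (b := 1 / 2) (by norm_num)
  refine ⟨m * 2 + A, fun t => (norm_add_le _ _).trans ?_⟩
  rw [add_mul]
  refine add_le_add ?_ ?_
  · rw [norm_mul, Complex.norm_natCast]
    refine (mul_le_mul_of_nonneg_left (norm_inv_sub_one_le_two (by norm_num) t)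
      (Nat.cast_nonneg m)).trans (le_mul_of_one_le_right (by positivity)
        (Real.one_le_rpow (le_add_of_nonneg_right (abs_nonneg _)) (by norm_num)))
  · simpa using hA (((1 / 2 : ℝ) : ℂ) + t * I) (by simp) (by simp)

/-- **The integral of `Φ ξ'/ξ` on the right line.** -/
theorem integral_right (h : HasFunctionalEquation a m E lam mu Q omega) {β : ℝ}
    (hg : GoodRight a β) (hβ : 2 ≤ β) (hT : IsTest g) :
    ∫ t : ℝ, testTransform g ((β : ℂ) + t * I) *
        logDeriv (xiF m E lam mu Q omega) ((β : ℂ) + t * I) =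
      2 * π * ((m : ℂ) * testTransform g 1) -
        2 * π * (∑' n : ℕ, lamF a n * g (Real.log n) / (√n : ℂ)) +
        ∫ t : ℝ, testTransform g (((1 / 2 : ℝ) : ℂ) + t * I) * halfKernel m lam mu Q t := by
  obtain ⟨A, -, hA⟩ := exists_restKernel_le h.lam_pos h.mu_re Q m (a := 1 / 2) (b := β)
    (by norm_num)
  have hrest : ∀ σ : ℝ, 1 / 2 ≤ σ → σ ≤ β → Integrable fun t : ℝ =>
      testTransform g ((σ : ℂ) + t * I) * restKernel m lam mu Q ((σ : ℂ) + t * I) := fun σ h1 h2 =>
    integrable_line_mul hT σ (continuous_restKernel_line h.lam_pos h.mu_re (by linarith))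
      fun t => by simpa using hA ((σ : ℂ) + t * I) (by simpa using h1) (by simpa using h2)
  have hser : Integrable fun t : ℝ =>
      testTransform g ((β : ℂ) + t * I) * LSeries (lamF a) (pt β t) := by
    refine (integrable_line hT β).mul_bdd hg.continuous_series.aestronglyMeasurable
      (c := ∑' n, ‖LSeries.term (lamF a) (β : ℂ) n‖) (Eventually.of_forall fun t => ?_)
    rw [lSeries_lamF_line]
    refine (norm_tsum_le_tsum_norm (hg.summable.congr fun n => ?_)).trans (le_of_eq ?_)
    · rw [norm_mul, norm_osc, mul_one]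
    · simp only [norm_mul, norm_osc, mul_one]
  have hpole : ∀ σ : ℝ, σ ≠ 1 → Integrable fun t : ℝ =>
      (m : ℂ) * (testTransform g ((σ : ℂ) + t * I) * ((σ : ℂ) + t * I - 1)⁻¹) := fun σ hσ =>
    (integrable_pole hT (ρ := 1) (by simpa using hσ)).const_mul _
  have e : ∀ t : ℝ, testTransform g ((β : ℂ) + t * I) *
      logDeriv (xiF m E lam mu Q omega) ((β : ℂ) + t * I) =
      (m : ℂ) * (testTransform g ((β : ℂ) + t * I) * ((β : ℂ) + t * I - 1)⁻¹) +
        testTransform g ((β : ℂ) + t * I) * restKernel m lam mu Q ((β : ℂ) + t * I) -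
        testTransform g ((β : ℂ) + t * I) * LSeries (lamF a) (pt β t) := fun t => by
    rw [show (β : ℂ) + t * I = pt β t from rfl, logDeriv_xiF h hg]
    ring
  have e2 : ∀ t : ℝ, testTransform g (((1 / 2 : ℝ) : ℂ) + t * I) * halfKernel m lam mu Q t =
      (m : ℂ) * (testTransform g (((1 / 2 : ℝ) : ℂ) + t * I) *
          (((1 / 2 : ℝ) : ℂ) + t * I - 1)⁻¹) +
        testTransform g (((1 / 2 : ℝ) : ℂ) + t * I) *
          restKernel m lam mu Q (((1 / 2 : ℝ) : ℂ) + t * I) := fun t => by
    rw [halfKernel]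
    ring
  rw [integral_congr_ae (Eventually.of_forall e), integral_congr_ae (Eventually.of_forall e2),
    integral_sub ((hpole β (by linarith)).fun_add (hrest β (by linarith) le_rfl)) hser,
    integral_add (hpole β (by linarith)) (hrest β (by linarith) le_rfl),
    integral_add (hpole _ (by norm_num)) (hrest _ le_rfl (by linarith)), integral_line_series hg hT,
    integral_shift hT (a := 1 / 2) (b := β) (by linarith)
      (fun s h1 _ => differentiableAt_restKernel h.lam_pos h.mu_re (by linarith)) hA,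
    integral_const_mul, integral_const_mul]
  have hp := integral_pole_sub hT (ρ := 1) (a := 1 / 2) (b := β) (by norm_num)
    (by simp; linarith)
  linear_combination (m : ℂ) * hp

/-- **Weil's explicit formula.** -/
theorem hasSum_weil (h : HasFunctionalEquation a m E lam mu Q omega) (he : HasEulerProduct a)
    (hT : IsTest g) :
    HasSum (fun ρ : ℂ => (fMult (xiF m E lam mu Q omega) ρ : ℂ) * testTransform g ρ)
      (weilSide a m lam mu Q g) := by
  obtain ⟨β, hβ, hser⟩ := FA.SelbergLandau.exists_lSeries_lamF h he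
  have hg : GoodRight a β := ⟨by linarith, fun v => hser _ (by simp [pt])⟩
  obtain ⟨A, hA⟩ := lineBound_xiF h hg hβ
  have hmain := hasSum_transform (isSelfDual_xiF h he) hA hT
  have hstar : ∀ t : ℝ, testTransform g (((1 - β : ℝ) : ℂ) + t * I) *
      conj (logDeriv (xiF m E lam mu Q omega) ((β : ℂ) + t * I)) =
      conj (testTransform (starTest g) ((β : ℂ) + t * I) *
        logDeriv (xiF m E lam mu Q omega) ((β : ℂ) + t * I)) := fun t => by
    rw [map_mul, testTransform_starTest, Complex.conj_conj]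
    congr 2
    simp only [map_add, map_mul, conj_ofReal, conj_I]
    push_cast
    ring
  rw [integral_congr_ae (Eventually.of_forall hstar), integral_conj,
    integral_right h hg hβ hT, integral_right h hg hβ (isTest_starTest hT)] at hmain
  obtain ⟨A', hA'⟩ := exists_halfKernel_le (m := m) (Q := Q) h.lam_pos h.mu_re
  have hk := continuous_halfKernel (m := m) (Q := Q) h.lam_pos h.mu_re
  have i1 := integrable_line_mul hT (1 / 2) hk hA'
  have i2 : Integrable fun t : ℝ => testTransform g (((1 / 2 : ℝ) : ℂ) + t * I) *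
      conj (halfKernel m lam mu Q t) :=
    integrable_line_mul hT (1 / 2) (continuous_conj.comp hk) (A := A') fun t => by
      simpa only [Function.comp_apply, Complex.norm_conj] using hA' t
  have hc1 : conj (testTransform (starTest g) 1) = testTransform g 0 := by
    rw [testTransform_starTest, Complex.conj_conj, map_one, sub_self]
  have hcs : conj (∑' n : ℕ, lamF a n * starTest g (Real.log n) / (√n : ℂ)) =
      ∑' n : ℕ, conj (lamF a n) * g (-Real.log n) / (√n : ℂ) := by
    rw [conj_tsum]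
    refine tsum_congr fun n => ?_
    simp only [starTest, map_div₀, map_mul, Complex.conj_conj, conj_ofReal]
  have hci : conj (∫ t : ℝ, testTransform (starTest g) (((1 / 2 : ℝ) : ℂ) + t * I) *
      halfKernel m lam mu Q t) =
      ∫ t : ℝ, testTransform g (((1 / 2 : ℝ) : ℂ) + t * I) * conj (halfKernel m lam mu Q t) := by
    rw [← integral_conj]
    refine integral_congr_ae (Eventually.of_forall fun t => ?_)
    simp only [map_mul, testTransform_starTest, Complex.conj_conj]
    congr 2
    simp only [map_add, map_mul, conj_ofReal, conj_I]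
    push_cast
    ring
  have hw : ∫ t : ℝ, testTransform g (((1 / 2 : ℝ) : ℂ) + t * I) * (archWeightF lam mu Q t : ℂ) =
      (∫ t : ℝ, testTransform g (((1 / 2 : ℝ) : ℂ) + t * I) * halfKernel m lam mu Q t) +
        ∫ t : ℝ, testTransform g (((1 / 2 : ℝ) : ℂ) + t * I) *
          conj (halfKernel m lam mu Q t) := by
    rw [← integral_add i1 i2]
    refine integral_congr_ae (Eventually.of_forall fun t => ?_)
    simp only [halfKernel, ← mul_add, halfKernel_add_conj h.Q_pos]
  have hs : ∑' n : ℕ, (lamF a n * g (Real.log n) + conj (lamF a n) * g (-Real.log n)) / (√n : ℂ) =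
      (∑' n : ℕ, lamF a n * g (Real.log n) / (√n : ℂ)) +
        ∑' n : ℕ, conj (lamF a n) * g (-Real.log n) / (√n : ℂ) := by
    simp only [add_div]
    refine Summable.tsum_add ?_ ?_
    · exact (summable_log_mul hT (fun n => lamF a n / (√n : ℂ)) (ε := 1) (by norm_num)).congr
        fun n => by rw [one_mul]; ring
    · exact (summable_log_mul hT (fun n => conj (lamF a n) / (√n : ℂ)) (ε := -1)
        (by norm_num)).congr fun n => by rw [neg_one_mul]; ring
  simp only [map_add, map_sub, map_mul, map_ofNat, map_natCast, conj_ofReal, hc1, hcs, hci]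
    at hmain
  have hπ : (π : ℂ) ≠ 0 := ofReal_ne_zero.2 Real.pi_ne_zero
  convert hmain using 1
  rw [weilSide, hw, hs]
  generalize (∫ t : ℝ, testTransform g (((1 / 2 : ℝ) : ℂ) + t * I) * halfKernel m lam mu Q t) = A₁
  generalize (∫ t : ℝ, testTransform g (((1 / 2 : ℝ) : ℂ) + t * I) *
    conj (halfKernel m lam mu Q t)) = A₂
  field_simp
  ring

end FA.SelbergWeil

end
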