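import Fermat.Agent.SelbergWeil.Main
import Fermat.Agent.SelbergHadamard.Criteria
import Mathlib.Analysis.Calculus.BumpFunction.Normed
import Mathlib.Analysis.Calculus.BumpFunction.InnerProduct

/-!
# Weil's positivity criterion in the Selberg class

A zero `ρ₀` off the line and its mirror are separated by the transform `Ψ k ^ N`: `Ψ` is `1` and
`-1` there and kills the other zeros near them, and `k`, the transform of a nonnegative bump moved
to the height of `ρ₀`, is at least twice as large there as at the zeros far away.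
-/

set_option autoImplicit false

noncomputable section

open Complex MeasureTheory Filter Topology Set
open scoped Real ComplexConjugate ContDiff
open FA.WeilExplicit (IsTest testTransform)
open FA.DedekindHadamard (fMult)
open FA.DegreeGap (HasFunctionalEquation)
open FA.SelbergClass (HasEulerProduct)
open FA.SelbergHadamard (xiF isSelfDual_xiF IsSelfDual ZerosOnLine)
open FA.SelbergLandau (lamF)

namespace FA.SelbergWeil

variable {a : ℕ → ℂ} {m : ℕ} {E : ℂ → ℂ} {r : ℕ} {lam : Fin r → ℝ} {mu : Fin r → ℂ} {Q : ℝ}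
  {omega : ℂ} {g : ℝ → ℂ} {X : ℂ → ℂ}

/-- Weil's functional at the autocorrelation of `g`. -/
def weilForm (a : ℕ → ℂ) (m : ℕ) (lam : Fin r → ℝ) (mu : Fin r → ℂ) (Q : ℝ) (g : ℝ → ℂ) : ℝ :=
  2 * m * (testTransform g 1 * conj (testTransform g 0)).re -
      2 * (∑' n : ℕ, lamF a n * weilCorr g (Real.log n) / (√n : ℂ)).re +
    (∫ t : ℝ, ‖testTransform g (((1 / 2 : ℝ) : ℂ) + t * I)‖ ^ 2 * archWeightF lam mu Q t) / (2 * π)

/-- The explicit formula's other side at an autocorrelation. -/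
theorem weilSide_weilCorr (h : IsTest g) :
    weilSide a m lam mu Q (weilCorr g) = (weilForm a m lam mu Q g : ℂ) := by
  have hC := isTest_weilCorr h
  have hs : Summable fun n : ℕ => lamF a n * weilCorr g (Real.log n) / (√n : ℂ) :=
    (summable_log_mul hC (fun n => lamF a n / (√n : ℂ)) (ε := 1) (by norm_num)).congr
      fun n => by rw [one_mul]; ring
  have hpole : testTransform (weilCorr g) 0 + testTransform (weilCorr g) 1 =
      ((2 * (testTransform g 1 * conj (testTransform g 0)).re : ℝ) : ℂ) := by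
    rw [testTransform_weilCorr h, testTransform_weilCorr h, map_zero, sub_zero, map_one, sub_self,
      ← Complex.add_conj, map_mul, Complex.conj_conj]
    ring
  have hprime : ∑' n : ℕ, (lamF a n * weilCorr g (Real.log n) +
      conj (lamF a n) * weilCorr g (-Real.log n)) / (√n : ℂ) =
      ((2 * (∑' n : ℕ, lamF a n * weilCorr g (Real.log n) / (√n : ℂ)).re : ℝ) : ℂ) := by
    rw [← Complex.add_conj, conj_tsum, ← hs.tsum_add (Complex.summable_conj.2 hs)]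
    refine tsum_congr fun n => ?_
    rw [weilCorr_neg, map_div₀, map_mul, conj_ofReal, add_div]
  have hline : ∀ t : ℝ, testTransform (weilCorr g) (((1 / 2 : ℝ) : ℂ) + t * I) =
      ((‖testTransform g (((1 / 2 : ℝ) : ℂ) + t * I)‖ ^ 2 : ℝ) : ℂ) := fun t => by
    rw [testTransform_weilCorr h, ← Complex.normSq_eq_norm_sq, ← Complex.mul_conj]
    congr 3
    simp only [map_add, map_mul, conj_ofReal, conj_I]
    push_cast
    ring
  rw [weilSide, hpole, hprime]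
  simp only [hline, ← ofReal_mul]
  rw [integral_complex_ofReal, weilForm]
  push_cast
  ring

/-- **The explicit formula at an autocorrelation.** -/
theorem hasSum_weilForm (h : HasFunctionalEquation a m E lam mu Q omega) (he : HasEulerProduct a)
    (hT : IsTest g) :
    HasSum (fun ρ : ℂ => (fMult (xiF m E lam mu Q omega) ρ : ℂ) *
      (testTransform g ρ * conj (testTransform g (1 - conj ρ))))
      (weilForm a m lam mu Q g : ℂ) := by
  rw [← weilSide_weilCorr hT]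
  exact (hasSum_weil h he (isTest_weilCorr hT)).congr_fun fun ρ => by
    rw [testTransform_weilCorr hT]

theorem weilForm_nonneg (h : HasFunctionalEquation a m E lam mu Q omega) (he : HasEulerProduct a)
    (hline : ZerosOnLine (xiF m E lam mu Q omega)) (hT : IsTest g) :
    0 ≤ weilForm a m lam mu Q g := by
  have hd := isSelfDual_xiF h he
  have h1 := Complex.hasSum_re (hasSum_weilForm h he hT)
  rw [ofReal_re] at h1
  refine h1.nonneg fun ρ => ?_
  by_cases hm : fMult (xiF m E lam mu Q omega) ρ = 0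
  · simp [hm]
  have hρ := hline ρ (hd.mult_ne_zero_iff.1 hm)
  rw [show 1 - conj ρ = ρ by apply Complex.ext <;> simp [hρ]; norm_num, Complex.mul_conj,
    ← ofReal_natCast, ← ofReal_mul, ofReal_re]
  exact mul_nonneg (Nat.cast_nonneg _) (normSq_nonneg _)

/-- The transform of a nonnegative bump. -/
theorem exists_bump : ∃ k : ℂ → ℂ, IsSmoothTransform k ∧
    ∀ x : ℝ, ∃ y : ℝ, 0 < y ∧ k x = (y : ℂ) := by
  obtain ⟨f, hin, -⟩ : ∃ f : ContDiffBump (0 : ℝ), f.rIn = 1 ∧ f.rOut = 2 :=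
    ⟨⟨1, 2, zero_lt_one, one_lt_two⟩, rfl, rfl⟩
  refine ⟨testTransform fun u => ((f u : ℝ) : ℂ), ⟨_, Complex.ofRealCLM.contDiff.comp f.contDiff,
    f.hasCompactSupport.comp_left Complex.ofReal_zero, rfl⟩, fun x => ?_⟩
  refine ⟨∫ u : ℝ, f u * Real.exp ((x - 1 / 2) * u), ?_, ?_⟩
  · refine (f.continuous.mul (by fun_prop)).integral_pos_of_hasCompactSupport_nonneg_nonzero
      (x := 0) f.hasCompactSupport.mul_right (fun u => mul_nonneg f.nonneg (Real.exp_pos _).le) ?_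
    rw [f.one_of_mem_closedBall (Metric.mem_closedBall_self (by rw [hin]; norm_num))]
    simp
  · rw [testTransform, ← integral_complex_ofReal]
    refine integral_congr_ae (Eventually.of_forall fun u => ?_)
    push_cast
    ring_nf

theorem finite_near (hX : IsSelfDual X) (y Y : ℝ) :
    {ρ : ℂ | fMult X ρ ≠ 0 ∧ |ρ.im - y| ≤ Y}.Finite := by
  refine (FA.BombieriLagarias.finite_support hX.summable_weight (1 + |y| + Y)).subset
    fun ρ hρ => ⟨hρ.1, ?_⟩
  obtain ⟨h0, h1⟩ := hX.zero_strip (hX.mult_ne_zero_iff.1 hρ.1)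
  refine (norm_le_abs_re_add_abs_im ρ).trans ?_
  rw [abs_of_nonneg h0]
  linarith [abs_sub_abs_le_abs_sub ρ.im y, hρ.2]

/-- The test function that a zero off the line produces. -/
theorem exists_separator (hX : IsSelfDual X) {ρ₀ : ℂ} (hne : ρ₀.re ≠ 1 / 2) :
    ∃ (F k : ℂ → ℂ) (u v q : ℝ), IsSmoothTransform F ∧ IsSmoothTransform k ∧
      0 < u ∧ 0 < v ∧ 0 ≤ q ∧ q ^ 2 < u * v ∧
      F ρ₀ = 1 ∧ F (1 - conj ρ₀) = -1 ∧ k ρ₀ = (u : ℂ) ∧ k (1 - conj ρ₀) = (v : ℂ) ∧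
      ∀ ρ, X ρ = 0 → ρ ≠ ρ₀ → ρ ≠ 1 - conj ρ₀ → F ρ = 0 ∨ ‖k ρ‖ ≤ q := by
  classical
  obtain ⟨b, hb, hbpos⟩ := exists_bump
  obtain ⟨ρ₁, hρ₁⟩ : ∃ ρ₁, ρ₁ = 1 - conj ρ₀ := ⟨_, rfl⟩
  have h10 : ρ₀ - ρ₁ ≠ 0 := fun e => hne (by
    have := congrArg Complex.re (sub_eq_zero.1 e)
    simp [hρ₁] at this
    linarith)
  obtain ⟨k, hk⟩ : ∃ k : ℂ → ℂ, k = fun s => b (s + -(((ρ₀.im : ℝ) : ℂ) * I)) := ⟨_, rfl⟩
  have hkt : IsSmoothTransform k := hk ▸ hb.comp_add _
  obtain ⟨u, hu, hku⟩ := hbpos ρ₀.re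
  obtain ⟨v, hv, hkv⟩ := hbpos (1 - ρ₀.re)
  have hk0 : k ρ₀ = (u : ℂ) := by
    rw [hk, ← hku]
    refine congrArg b ?_
    apply Complex.ext <;> simp
  have hk1 : k ρ₁ = (v : ℂ) := by
    rw [hk, ← hkv, hρ₁]
    refine congrArg b ?_
    apply Complex.ext <;> simp
  obtain ⟨q, hq⟩ : ∃ q, q = √(u * v) / 2 := ⟨_, rfl⟩
  have hq0 : 0 < q := hq ▸ div_pos (Real.sqrt_pos.2 (mul_pos hu hv)) two_pos
  obtain ⟨g, hgT, -, hbg⟩ := hb.exists_test
  obtain ⟨C, hC, hdecay⟩ := exists_transform_le hgT 1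
  obtain ⟨Y, hY⟩ : ∃ Y, Y = C / q := ⟨_, rfl⟩
  obtain ⟨S, hS⟩ : ∃ S, S = ((finite_near hX ρ₀.im Y).toFinset.erase ρ₀).erase ρ₁ := ⟨_, rfl⟩
  obtain ⟨P, hP⟩ : ∃ P : ℂ → ℂ, P = fun s => ∏ z ∈ S, (s - z) := ⟨_, rfl⟩
  have hP0 : P ρ₀ ≠ 0 := by
    rw [hP]
    refine Finset.prod_ne_zero_iff.2 fun z hz => sub_ne_zero.2 fun e => ?_
    rw [hS, ← e] at hz
    simp at hz
  have hP1 : P ρ₁ ≠ 0 := by
    rw [hP]
    refine Finset.prod_ne_zero_iff.2 fun z hz => sub_ne_zero.2 fun e => ?_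
    rw [hS, ← e] at hz
    simp at hz
  obtain ⟨α, hα⟩ : ∃ α, α = ((ρ₀ - ρ₁) * (P ρ₀ * (u : ℂ)))⁻¹ := ⟨_, rfl⟩
  obtain ⟨β, hβ⟩ : ∃ β, β = ((ρ₀ - ρ₁) * (P ρ₁ * (v : ℂ)))⁻¹ := ⟨_, rfl⟩
  obtain ⟨F, hF⟩ : ∃ F : ℂ → ℂ, F = fun s =>
      α * ((s - ρ₁) * (P s * k s)) + β * ((s - ρ₀) * (P s * k s)) := ⟨_, rfl⟩
  have hFt : IsSmoothTransform F := by
    have hPk : IsSmoothTransform fun s => P s * k s := hP ▸ hkt.prod_sub_mul S
    exact hF ▸ ((hPk.sub_mul ρ₁).const_mul α).add ((hPk.sub_mul ρ₀).const_mul β)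
  have hu' : (u : ℂ) ≠ 0 := ofReal_ne_zero.2 hu.ne'
  have hv' : (v : ℂ) ≠ 0 := ofReal_ne_zero.2 hv.ne'
  refine ⟨F, k, u, v, q, hFt, hkt, hu, hv, hq0.le, ?_, ?_, ?_, hk0, hρ₁ ▸ hk1, fun ρ hρ h0 h1 => ?_⟩
  · rw [hq, div_pow, Real.sq_sqrt (mul_pos hu hv).le]
    linarith [mul_pos hu hv]
  · simp only [hF, sub_self, zero_mul, mul_zero, add_zero, hk0, hα]
    field_simp
  · rw [← hρ₁]
    simp only [hF, sub_self, zero_mul, mul_zero, zero_add, hk1, hβ, ← neg_sub ρ₀ ρ₁]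
    field_simp
  · rw [← hρ₁] at h1
    by_cases hn : |ρ.im - ρ₀.im| ≤ Y
    · refine Or.inl ?_
      have hmem : ρ ∈ S := by
        rw [hS]
        simp [h0, h1, hn, hX.mult_ne_zero_iff.2 hρ]
      have hPρ : P ρ = 0 := hP ▸ Finset.prod_eq_zero hmem (sub_self ρ)
      simp [hF, hPρ]
    · refine Or.inr ?_
      obtain ⟨hl, hr⟩ := hX.zero_strip hρ
      rw [hk, hbg]
      have hd := hdecay (ρ + -(((ρ₀.im : ℝ) : ℂ) * I)) (by simp [abs_le]; constructor <;> linarith)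
      refine hd.trans ?_
      have him : (ρ + -(((ρ₀.im : ℝ) : ℂ) * I)).im = ρ.im - ρ₀.im := by simp; ring
      rw [him, div_le_iff₀ (by positivity)]
      have h3 : C / q < |ρ.im - ρ₀.im| := hY ▸ not_le.1 hn
      rw [div_lt_iff₀ hq0] at h3
      nlinarith [abs_nonneg (ρ.im - ρ₀.im), sq_nonneg |ρ.im - ρ₀.im|]

/-- **A zero off the line makes the functional negative at some smooth test function.** -/
theorem exists_weilForm_neg (h : HasFunctionalEquation a m E lam mu Q omega)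
    (he : HasEulerProduct a) {ρ₀ : ℂ} (hρ₀ : xiF m E lam mu Q omega ρ₀ = 0)
    (hne : ρ₀.re ≠ 1 / 2) :
    ∃ g : ℝ → ℂ, ContDiff ℝ ∞ g ∧ HasCompactSupport g ∧ weilForm a m lam mu Q g < 0 := by
  classical
  have hd := isSelfDual_xiF h he
  obtain ⟨X, hX⟩ : ∃ X, X = xiF m E lam mu Q omega := ⟨_, rfl⟩
  obtain ⟨F, k, u, v, q, hF, hk, hu, hv, hq, hquv, hF0, hF1, hk0, hk1, hfar⟩ :=
    exists_separator hd hne
  rw [← hX] at hd hρ₀ hfar
  obtain ⟨gF, hgF, -, rfl⟩ := hF.exists_test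
  obtain ⟨T, hT⟩ : ∃ T : ℂ → ℂ,
      T = fun ρ => testTransform gF ρ * conj (testTransform gF (1 - conj ρ)) := ⟨_, rfl⟩
  have hTsum : Summable fun ρ => ‖(fMult X ρ : ℂ) * T ρ‖ := by
    have := ((hasSum_weilForm h he hgF).summable).norm
    rw [← hX] at this
    simpa only [hT] using this
  obtain ⟨K, hK⟩ : ∃ K, K = ∑' ρ, ‖(fMult X ρ : ℂ) * T ρ‖ := ⟨_, rfl⟩
  obtain ⟨M, hM⟩ : ∃ M : ℝ, M = (fMult X ρ₀ : ℝ) := ⟨_, rfl⟩
  have hM1 : 1 ≤ M := hM ▸ Nat.one_le_cast.2 (Nat.one_le_iff_ne_zero.2 (hd.mult_ne_zero_iff.2 hρ₀))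
  have huv := mul_pos hu hv
  obtain ⟨N, hN⟩ := exists_pow_lt_of_lt_one (show (0 : ℝ) < 1 / (|K| + 1) by positivity)
    (show q ^ 2 / (u * v) < 1 by rwa [div_lt_one huv])
  obtain ⟨g, hg1, hg2, hg3⟩ := hF.pow_mul hk N
  refine ⟨g, hg1, hg2, ?_⟩
  have hgT := IsSmoothTransform.isTest hg1 hg2
  have hsum := Complex.hasSum_re (hasSum_weilForm h he hgT)
  rw [← hX, ofReal_re] at hsum
  obtain ⟨ρ₁, hρ₁⟩ : ∃ ρ₁, ρ₁ = 1 - conj ρ₀ := ⟨_, rfl⟩
  have hmir : 1 - conj ρ₁ = ρ₀ := by simp [hρ₁]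
  have h10 : ρ₀ ≠ ρ₁ := fun e => hne (by
    have := congrArg Complex.re e
    simp [hρ₁] at this
    linarith)
  have hm1 : fMult X ρ₁ = fMult X ρ₀ := hρ₁ ▸ hd.mult_mirror ρ₀
  obtain ⟨B, hB⟩ : ∃ B : ℂ → ℝ, B = fun ρ =>
      (if ρ = ρ₀ then -(M * (u * v) ^ N) else 0) + (if ρ = ρ₁ then -(M * (u * v) ^ N) else 0) +
        (q ^ 2) ^ N * ‖(fMult X ρ : ℂ) * T ρ‖ := ⟨_, rfl⟩
  have hBsum : HasSum B (-(M * (u * v) ^ N) + -(M * (u * v) ^ N) + (q ^ 2) ^ N * K) :=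
    hB ▸ ((hasSum_ite_eq ρ₀ _).add (hasSum_ite_eq ρ₁ _)).add
      (hK ▸ hTsum.hasSum.mul_left _)
  have hle := hasSum_le (fun ρ => ?_) hsum hBsum
  · have h1 : (q ^ 2) ^ N * (|K| + 1) < (u * v) ^ N := by
      have := hN
      rw [div_pow, div_lt_div_iff₀ (by positivity) (by positivity), one_mul] at this
      exact this
    have h2 : (q ^ 2) ^ N * K ≤ (q ^ 2) ^ N * (|K| + 1) :=
      mul_le_mul_of_nonneg_left (by linarith [le_abs_self K]) (by positivity)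
    nlinarith [pow_pos huv N]
  · have hnn : 0 ≤ (q ^ 2) ^ N * ‖(fMult X ρ : ℂ) * T ρ‖ := by positivity
    simp only [← hg3, map_mul, map_pow, hB]
    rcases eq_or_ne ρ ρ₀ with rfl | h0
    · rw [if_pos rfl, if_neg h10, add_zero, hF0, hF1, hk0, hk1]
      refine le_trans (le_of_eq ?_) (le_add_of_nonneg_right hnn)
      simp only [map_neg, map_one, conj_ofReal, ← ofReal_pow, ← ofReal_natCast, hM, one_mul,
        neg_mul, mul_neg, Complex.neg_re, ← ofReal_mul, ofReal_re, mul_pow]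
    rcases eq_or_ne ρ ρ₁ with rfl | h1
    · rw [if_neg h0, if_pos rfl, zero_add, hmir, hF0, hρ₁, hF1, hk0, hk1, ← hρ₁]
      refine le_trans (le_of_eq ?_) (le_add_of_nonneg_right hnn)
      rw [hm1, hM]
      simp only [map_one, conj_ofReal, ← ofReal_pow, ← ofReal_natCast, one_mul, neg_mul, mul_neg,
        Complex.neg_re, ← ofReal_mul, ofReal_re, mul_pow, neg_inj]
      ring
    rw [if_neg h0, if_neg h1, zero_add, zero_add]
    by_cases hm : fMult X ρ = 0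
    · simp [hm]
    have hz := hd.mult_ne_zero_iff.1 hm
    have hz' := (hd.eq_zero_mirror_iff ρ).2 hz
    have e1 : 1 - conj ρ ≠ ρ₀ := fun e => h1 (by rw [hρ₁, ← e]; simp)
    have e2 : 1 - conj ρ ≠ 1 - conj ρ₀ := fun e =>
      h0 ((starRingEnd ℂ).injective (sub_right_injective e))
    rcases hfar ρ hz h0 (hρ₁ ▸ h1) with hz0 | hq1
    · simp [hz0, hT]
    rcases hfar _ hz' e1 e2 with hz0 | hq2
    · simp [hz0, hT]
    refine (re_le_norm _).trans (le_of_eq_of_le (b :=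
      (‖k ρ‖ * ‖k (1 - conj ρ)‖) ^ N * ‖(fMult X ρ : ℂ) * T ρ‖) ?_
      (mul_le_mul_of_nonneg_right ?_ (norm_nonneg _)))
    · simp only [hT, norm_mul, norm_pow, Complex.norm_conj, Complex.norm_natCast, mul_pow]
      ring
    · refine pow_le_pow_left₀ (by positivity) ?_ N
      rw [sq]
      exact mul_le_mul hq1 hq2 (norm_nonneg _) hq

/-- **Weil's criterion.** -/
theorem zerosOnLine_iff_weilForm (h : HasFunctionalEquation a m E lam mu Q omega)
    (he : HasEulerProduct a) :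
    (ZerosOnLine (xiF m E lam mu Q omega) ↔ ∀ g, IsTest g → 0 ≤ weilForm a m lam mu Q g) ∧
      (ZerosOnLine (xiF m E lam mu Q omega) ↔ ∀ g : ℝ → ℂ, ContDiff ℝ ∞ g → HasCompactSupport g →
        0 ≤ weilForm a m lam mu Q g) := by
  have key : (∀ g : ℝ → ℂ, ContDiff ℝ ∞ g → HasCompactSupport g →
      0 ≤ weilForm a m lam mu Q g) → ZerosOnLine (xiF m E lam mu Q omega) := fun hp ρ hρ => by
    by_contra hne
    obtain ⟨g, h1, h2, h3⟩ := exists_weilForm_neg h he hρ hne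
    exact absurd (hp g h1 h2) (not_le.2 h3)
  exact ⟨⟨fun hl g hg => weilForm_nonneg h he hl hg,
      fun hp => key fun g h1 h2 => hp g (IsSmoothTransform.isTest h1 h2)⟩,
    ⟨fun hl g h1 h2 => weilForm_nonneg h he hl (IsSmoothTransform.isTest h1 h2), key⟩⟩

theorem weilCorr_eq_zero {L : ℝ} {c : ℝ} (hsupp : ∀ v : ℝ, c + L < v ∨ v < c → g v = 0) {u : ℝ}
    (hu : L < u) : weilCorr g u = 0 := by
  rw [weilCorr_apply, integral_eq_zero_of_ae (Eventually.of_forall fun v => ?_)]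
  rcases le_or_gt v (c + L) with hv | hv
  · simp [hsupp (v - u) (Or.inr (by linarith))]
  · simp [hsupp v (Or.inl hv)]

/-- **No primes in a window shorter than `log 2`.** -/
theorem weilForm_short (he : HasEulerProduct a) {c L : ℝ} (hL : L < Real.log 2)
    (hsupp : ∀ v : ℝ, c + L < v ∨ v < c → g v = 0) :
    weilForm a m lam mu Q g = 2 * m * (testTransform g 1 * conj (testTransform g 0)).re +
      (∫ t : ℝ, ‖testTransform g (((1 / 2 : ℝ) : ℂ) + t * I)‖ ^ 2 * archWeightF lam mu Q t) /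
        (2 * π) := by
  have h0 : (∑' n : ℕ, lamF a n * weilCorr g (Real.log n) / (√n : ℂ)) = 0 := by
    refine (tsum_congr fun n => ?_).trans tsum_zero
    rcases le_or_gt 2 n with hn | hn
    · rw [weilCorr_eq_zero hsupp (hL.trans_le (Real.log_le_log two_pos (by exact_mod_cast hn)))]
      simp
    · interval_cases n
      · simp
      · simp [FA.SelbergLandau.lamF_one he.map_one]
  rw [weilForm, h0, zero_re, mul_zero, sub_zero]

end FA.SelbergWeil

end
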