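import Fermat.Agent.SelbergHadamard.SelfDual
import Fermat.Agent.SelbergLandau.Lines
import Fermat.Agent.ExplicitFormula.Digamma

/-!
# The logarithmic derivative of the completed function on a vertical line
-/

set_option autoImplicit false

noncomputable section

open Complex Filter Topology Set
open scoped Real ComplexConjugate
open FA.DegreeGap (HasFunctionalEquation gammaFactor pt)
open FA.SelbergHadamard (xiF xiF_eq_series gammaFactor_ne_zero gammaArg_re_pos no_pole_of_re_pos)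
open FA.SelbergLandau (lamF GoodRight)

namespace FA.SelbergWeil

variable {a : ℕ → ℂ} {m : ℕ} {E : ℂ → ℂ} {r : ℕ} {lam : Fin r → ℝ} {mu : Fin r → ℂ} {Q : ℝ}
  {omega : ℂ}

/-- `log Q + ∑ λ ψ (λ s + μ)`, the logarithmic derivative of the Gamma factor. -/
def archF (lam : Fin r → ℝ) (mu : Fin r → ℂ) (Q : ℝ) (s : ℂ) : ℂ :=
  Complex.log Q + ∑ j, (lam j : ℂ) * digamma ((lam j : ℂ) * s + mu j)

/-- The part without pole at `1`. -/
def restKernel (m : ℕ) (lam : Fin r → ℝ) (mu : Fin r → ℂ) (Q : ℝ) (s : ℂ) : ℂ :=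
  (m : ℂ) * s⁻¹ + archF lam mu Q s

/-- `2 log Q + ∑ 2 λ re ψ (λ (1/2 + it) + μ)`. -/
def archWeightF (lam : Fin r → ℝ) (mu : Fin r → ℂ) (Q : ℝ) (t : ℝ) : ℝ :=
  2 * Real.log Q +
    ∑ j, 2 * lam j * (digamma ((lam j : ℂ) * (1 / 2 + (t : ℂ) * I) + mu j)).re

theorem logDeriv_gammaFactor (h : HasFunctionalEquation a m E lam mu Q omega) {s : ℂ}
    (hs : 0 < s.re) : logDeriv (gammaFactor lam mu Q) s = archF lam mu Q s := by
  have hQ0 : (Q : ℂ) ≠ 0 := ofReal_ne_zero.2 h.Q_pos.ne'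
  have hG : ∀ j, HasDerivAt (fun z => Complex.Gamma ((lam j : ℂ) * z + mu j))
      (deriv Complex.Gamma ((lam j : ℂ) * s + mu j) * (lam j : ℂ)) s := fun j => by
    refine ((Complex.differentiableAt_Gamma _ (no_pole_of_re_pos h hs j)).hasDerivAt.comp s
      (((hasDerivAt_id' s).const_mul _).add_const _)).congr_deriv ?_
    ring
  have hn : ∀ j, Complex.Gamma ((lam j : ℂ) * s + mu j) ≠ 0 := fun j =>
    Complex.Gamma_ne_zero_of_re_pos (gammaArg_re_pos h hs j)
  have hQd : HasDerivAt (fun z : ℂ => (Q : ℂ) ^ z) ((Q : ℂ) ^ s * Complex.log Q) s := by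
    simpa using (hasDerivAt_id' s).const_cpow (Or.inl hQ0)
  unfold FA.DegreeGap.gammaFactor
  rw [logDeriv_mul (f := fun z : ℂ => (Q : ℂ) ^ z)
      (g := fun z : ℂ => ∏ j, Complex.Gamma ((lam j : ℂ) * z + mu j)) s
      (cpow_ne_zero_iff.2 (Or.inl hQ0)) (Finset.prod_ne_zero_iff.2 fun j _ => hn j)
      hQd.differentiableAt (DifferentiableAt.fun_finsetProd fun j _ => (hG j).differentiableAt),
    logDeriv_apply, hQd.deriv,
    logDeriv_prod (f := fun j z => Complex.Gamma ((lam j : ℂ) * z + mu j)) (fun j _ => hn j)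
      (fun j _ => (hG j).differentiableAt), archF]
  congr 1
  · have := cpow_ne_zero_iff (y := s).2 (Or.inl hQ0)
    field_simp
  · refine Finset.sum_congr rfl fun j _ => ?_
    rw [logDeriv_apply, (hG j).deriv, digamma_def, logDeriv_apply]
    ring

/-- **`ξ'/ξ` where `-L'/L` is the series of `Λ_F`.** -/
theorem logDeriv_xiF (h : HasFunctionalEquation a m E lam mu Q omega) {β : ℝ}
    (hg : GoodRight a β) (t : ℝ) :
    logDeriv (xiF m E lam mu Q omega) (pt β t) =
      (m : ℂ) * (pt β t - 1)⁻¹ + restKernel m lam mu Q (pt β t) - LSeries (lamF a) (pt β t) := by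
  obtain ⟨-, hne, he⟩ := hg.2 t
  obtain ⟨s, hs⟩ : ∃ s, s = pt β t := ⟨_, rfl⟩
  rw [← hs] at hne he ⊢
  have hre : 1 < s.re := by rw [hs, FA.DegreeGap.pt_re]; exact hg.1
  have hU : {z : ℂ | 1 < z.re} ∈ 𝓝 s :=
    (isOpen_lt continuous_const continuous_re).mem_nhds hre
  have hev : xiF m E lam mu Q omega =ᶠ[𝓝 s]
      fun z => (z * (z - 1)) ^ m * gammaFactor lam mu Q z * LSeries a z :=
    mem_of_superset hU fun z hz => xiF_eq_series h hz
  have h0 : s ≠ 0 := fun e => by rw [e, zero_re] at hre; linarith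
  have h1 : s - 1 ≠ 0 := sub_ne_zero.2 fun e => by rw [e, one_re] at hre; exact lt_irrefl _ hre
  have hpoly : DifferentiableAt ℂ (fun z : ℂ => z * (z - 1)) s := by fun_prop
  have hγd : DifferentiableAt ℂ (gammaFactor lam mu Q) s := by
    unfold FA.DegreeGap.gammaFactor
    refine (differentiableAt_id.const_cpow (Or.inl (ofReal_ne_zero.2 h.Q_pos.ne'))).mul
      (DifferentiableAt.fun_finsetProd fun j _ => ?_)
    exact (Complex.differentiableAt_Gamma _
      (no_pole_of_re_pos h (by linarith) j)).fun_comp' s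
        ((differentiableAt_id.const_mul _).add_const _)
  have hγ0 := gammaFactor_ne_zero h (s := s) (by linarith)
  have hp0 : (s * (s - 1)) ^ m ≠ 0 := pow_ne_zero _ (mul_ne_zero h0 h1)
  rw [(logDeriv_congr_nhds hev).eq_of_nhds,
    logDeriv_mul (f := fun z => (z * (z - 1)) ^ m * gammaFactor lam mu Q z) (g := LSeries a) s
      (mul_ne_zero hp0 hγ0) hne ((hpoly.fun_pow m).mul hγd)
      (FA.SelbergZeroCount.differentiableAt_lSeries h hre),
    logDeriv_mul (f := fun z => (z * (z - 1)) ^ m) (g := gammaFactor lam mu Q) s hp0 hγ0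
      (hpoly.fun_pow m) hγd,
    logDeriv_fun_pow hpoly, logDeriv_gammaFactor h (by linarith),
    logDeriv_mul (f := fun z : ℂ => z) (g := fun z : ℂ => z - 1) s h0 h1 differentiableAt_fun_id
      (differentiableAt_fun_id.sub_const 1),
    logDeriv_apply (LSeries a), he, logDeriv_id', restKernel, logDeriv_apply,
    deriv_sub_const, deriv_id'']
  ring

theorem re_arg_pos (hlam : ∀ j, 0 < lam j) (hmu : ∀ j, 0 ≤ (mu j).re) {s : ℂ} (hs : 0 < s.re)
    (j : Fin r) : 0 < ((lam j : ℂ) * s + mu j).re := by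
  rw [add_re, re_ofReal_mul]
  linarith [mul_pos (hlam j) hs, hmu j]

theorem differentiableAt_digamma {z : ℂ} (hz : 0 < z.re) : DifferentiableAt ℂ digamma z := by
  have hU : IsOpen {w : ℂ | 0 < w.re} := isOpen_lt continuous_const continuous_re
  have hG : DifferentiableOn ℂ Complex.Gamma {w : ℂ | 0 < w.re} := fun w hw =>
    (Complex.differentiableAt_Gamma w fun k e => by
      have hw' : 0 < w.re := hw
      rw [e, Complex.neg_re, Complex.natCast_re] at hw'
      linarith [Nat.cast_nonneg (α := ℝ) k]).differentiableWithinAt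
  have hA : AnalyticAt ℂ Complex.Gamma z := hG.analyticAt (hU.mem_nhds hz)
  rw [digamma_def]
  exact (hA.deriv.differentiableAt.div hA.differentiableAt
    (Complex.Gamma_ne_zero_of_re_pos hz))

theorem differentiableAt_restKernel (hlam : ∀ j, 0 < lam j) (hmu : ∀ j, 0 ≤ (mu j).re) {s : ℂ}
    (hs : 0 < s.re) : DifferentiableAt ℂ (restKernel m lam mu Q) s := by
  unfold restKernel archF
  refine ((differentiableAt_id.inv fun e : id s = 0 => ?_).const_mul _).add
    ((DifferentiableAt.fun_sum fun j _ => ?_).const_add _)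
  · rw [id_eq] at e
    rw [e, zero_re] at hs
    exact lt_irrefl _ hs
  · exact ((differentiableAt_digamma (re_arg_pos hlam hmu hs j)).fun_comp' s
      ((differentiableAt_id.const_mul _).add_const _)).const_mul _

theorem norm_digamma_le_log {δ : ℝ} (hδ : 0 < δ) {z : ℂ} (hz : δ ≤ z.re) :
    ‖digamma z‖ ≤ δ⁻¹ + 9 + 3 * Real.log (‖z‖ + 3) := by
  have h1 := FA.ExplicitFormula.norm_digamma_le (z := z + 1) (by simp; linarith)
  rw [← logDeriv_apply, ← digamma_def, Complex.digamma_apply_add_one z fun k e => by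
    have := congrArg Complex.re e
    simp at this
    linarith [Nat.cast_nonneg (α := ℝ) k]] at h1
  have h2 : ‖z⁻¹‖ ≤ δ⁻¹ := by
    rw [norm_inv]
    exact inv_anti₀ hδ (hz.trans (re_le_norm z))
  have h3 : Real.log (‖z + 1‖ + 2) ≤ Real.log (‖z‖ + 3) := Real.log_le_log (by positivity)
    (by linarith [norm_add_le z 1, (norm_one : ‖(1 : ℂ)‖ = 1)])
  have h4 := norm_le_norm_add_norm_sub' (digamma z) (digamma z + z⁻¹)
  rw [sub_add_cancel_left, norm_neg] at h4
  linarith

/-- **The growth in a strip `0 < a ≤ re s ≤ b`.** -/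
theorem exists_restKernel_le (hlam : ∀ j, 0 < lam j) (hmu : ∀ j, 0 ≤ (mu j).re) (Q : ℝ) (m : ℕ)
    {a b : ℝ} (ha : 0 < a) : ∃ A : ℝ, 0 ≤ A ∧ ∀ s : ℂ, a ≤ s.re → s.re ≤ b →
      ‖restKernel m lam mu Q s‖ ≤ A * (1 + |s.im|) ^ (1 / 4 : ℝ) := by
  refine ⟨m * a⁻¹ + ‖Complex.log (Q : ℂ)‖ + ∑ j, lam j * ((lam j * a)⁻¹ + 9 +
      12 * (lam j * (|b| + 1) + ‖mu j‖ + 3) ^ (1 / 4 : ℝ)), ?_, fun s h1 h2 => ?_⟩
  · refine add_nonneg (by positivity) (Finset.sum_nonneg fun j _ => mul_nonneg (hlam j).le ?_)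
    have := hlam j
    have := mul_pos (hlam j) ha
    positivity
  obtain ⟨w, hw⟩ : ∃ w, w = (1 + |s.im|) ^ (1 / 4 : ℝ) := ⟨_, rfl⟩
  have hw1 : 1 ≤ w :=
    hw ▸ Real.one_le_rpow (le_add_of_nonneg_right (abs_nonneg _)) (by norm_num)
  rw [← hw, restKernel, archF, add_mul, add_mul, ← add_assoc, Finset.sum_mul]
  refine (norm_add₃_le).trans (add_le_add (add_le_add ?_ (le_mul_of_one_le_right (norm_nonneg _)
    hw1)) (norm_sum_le_of_le _ fun j _ => ?_))
  · rw [norm_mul, norm_inv, Complex.norm_natCast]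
    exact (mul_le_mul_of_nonneg_left (inv_anti₀ ha (h1.trans (re_le_norm s)))
      (Nat.cast_nonneg m)).trans (le_mul_of_one_le_right (by positivity) hw1)
  · have hl := hlam j
    obtain ⟨z, hz⟩ : ∃ z, z = (lam j : ℂ) * s + mu j := ⟨_, rfl⟩
    have hre : lam j * a ≤ z.re := by
      rw [hz, add_re, re_ofReal_mul]
      nlinarith [hmu j]
    obtain ⟨K, hK⟩ : ∃ K, K = lam j * (|b| + 1) + ‖mu j‖ + 3 := ⟨_, rfl⟩
    have hK0 : 0 < K := by
      rw [hK]
      linarith [mul_nonneg hl.le (show 0 ≤ |b| + 1 by positivity), norm_nonneg (mu j)]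
    have hn : ‖z‖ + 3 ≤ K * (1 + |s.im|) := by
      have e1 : ‖z‖ ≤ lam j * (|b| + |s.im|) + ‖mu j‖ := by
        rw [hz]
        refine (norm_add_le _ _).trans (add_le_add ?_ le_rfl)
        rw [norm_mul, Complex.norm_real, Real.norm_of_nonneg hl.le]
        refine mul_le_mul_of_nonneg_left ((norm_le_abs_re_add_abs_im s).trans
          (add_le_add ?_ le_rfl)) hl.le
        rw [abs_of_pos (ha.trans_le h1)]
        exact h2.trans (le_abs_self b)
      rw [hK]
      nlinarith [mul_nonneg (mul_nonneg hl.le (abs_nonneg b)) (abs_nonneg s.im),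
        mul_nonneg (norm_nonneg (mu j)) (abs_nonneg s.im), abs_nonneg s.im]
    have hlog : Real.log (‖z‖ + 3) ≤ 4 * (K ^ (1 / 4 : ℝ) * w) := by
      rw [hw, ← Real.mul_rpow hK0.le (by positivity)]
      refine (Real.log_le_rpow_div (by positivity) (show (0 : ℝ) < 1 / 4 by norm_num)).trans ?_
      rw [div_le_iff₀ (by norm_num)]
      have := Real.rpow_le_rpow (by positivity) hn (show (0 : ℝ) ≤ 1 / 4 by norm_num)
      linarith
    rw [← hK, ← hz, norm_mul, Complex.norm_real, Real.norm_of_nonneg hl.le, mul_assoc]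
    refine mul_le_mul_of_nonneg_left ((norm_digamma_le_log (mul_pos hl ha) hre).trans ?_) hl.le
    have h5 : (lam j * a)⁻¹ + 9 ≤ ((lam j * a)⁻¹ + 9) * w :=
      le_mul_of_one_le_right (by have := mul_pos hl ha; positivity) hw1
    linarith

/-- `ξ'/ξ + conj` on the line is the weight. -/
theorem halfKernel_add_conj (hQ : 0 < Q) (t : ℝ) :
    ((m : ℂ) * (((1 / 2 : ℝ) : ℂ) + t * I - 1)⁻¹ +
        restKernel m lam mu Q (((1 / 2 : ℝ) : ℂ) + t * I)) +
      conj ((m : ℂ) * (((1 / 2 : ℝ) : ℂ) + t * I - 1)⁻¹ +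
        restKernel m lam mu Q (((1 / 2 : ℝ) : ℂ) + t * I)) =
      (archWeightF lam mu Q t : ℂ) := by
  rw [Complex.add_conj]
  congr 1
  rw [archWeightF, restKernel, archF, show ((1 / 2 : ℝ) : ℂ) = 1 / 2 by push_cast; rfl]
  simp only [add_re, re_ofReal_mul, Complex.re_sum, Complex.log_re, Complex.norm_real,
    Real.norm_of_nonneg hQ.le, ← ofReal_natCast]
  have e : ((1 / 2 : ℂ) + (t : ℂ) * I - 1)⁻¹.re = -((1 / 2 : ℂ) + (t : ℂ) * I)⁻¹.re := by
    have : (1 / 2 : ℂ) + (t : ℂ) * I - 1 = -conj ((1 / 2 : ℂ) + (t : ℂ) * I) := by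
      simp [map_ofNat]
      ring
    rw [this, inv_neg, ← map_inv₀, Complex.neg_re, Complex.conj_re]
  rw [e, mul_add, mul_add, mul_add, Finset.mul_sum]
  simp only [← mul_assoc]
  ring

end FA.SelbergWeil

end
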