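import Fermat.Agent.SelbergWeil.Test
import Fermat.Agent.ExplicitFormula.Residue

/-!
# Moving a vertical line
-/

set_option autoImplicit false

noncomputable section

open Complex MeasureTheory Filter Topology Set
open scoped Real
open FA.WeilExplicit (IsTest testTransform)
open FA.ExplicitFormula (boxInt boxInt_eq_zero boxInt_residue)

namespace FA.SelbergWeil

variable {g : ℝ → ℂ} {a b : ℝ}

/-- If the contour integrals are eventually `R` and the horizontal sides tend to `0`, the two lines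
differ by `R / i`. -/
theorem integral_lines_sub {H : ℂ → ℂ} {R : ℂ} (hab : a ≤ b)
    (hbox : ∀ᶠ T : ℝ in atTop, boxInt H a b T = R) {e : ℝ → ℝ} (he : Tendsto e atTop (𝓝 0))
    (hside : ∀ᶠ T : ℝ in atTop, ∀ u ∈ Icc a b, ‖H ((u : ℂ) + T * I)‖ ≤ e T ∧
      ‖H ((u : ℂ) + ((-T : ℝ) : ℂ) * I)‖ ≤ e T)
    (hia : Integrable fun t : ℝ => H ((a : ℂ) + t * I))
    (hib : Integrable fun t : ℝ => H ((b : ℂ) + t * I)) :
    I * ((∫ t : ℝ, H ((b : ℂ) + t * I)) - ∫ t : ℝ, H ((a : ℂ) + t * I)) = R := by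
  have hlim : Tendsto (fun T => boxInt H a b T) atTop
      (𝓝 (0 - 0 + I * (∫ t : ℝ, H ((b : ℂ) + t * I)) - I * ∫ t : ℝ, H ((a : ℂ) + t * I))) := by
    have hb : Tendsto (fun T => e T * |b - a|) atTop (𝓝 0) := by simpa using he.mul_const |b - a|
    refine ((Tendsto.sub ?_ ?_).add (Tendsto.const_mul I ?_)).sub (Tendsto.const_mul I ?_)
    · refine squeeze_zero_norm' ?_ hb
      filter_upwards [hside] with T hT
      exact intervalIntegral.norm_integral_le_of_norm_le_const fun u hu =>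
        (hT u (Ioc_subset_Icc_self (by rwa [uIoc_of_le hab] at hu))).2
    · refine squeeze_zero_norm' ?_ hb
      filter_upwards [hside] with T hT
      exact intervalIntegral.norm_integral_le_of_norm_le_const fun u hu =>
        (hT u (Ioc_subset_Icc_self (by rwa [uIoc_of_le hab] at hu))).1
    · exact intervalIntegral_tendsto_integral hib tendsto_neg_atTop_atBot tendsto_id
    · exact intervalIntegral_tendsto_integral hia tendsto_neg_atTop_atBot tendsto_id
  rw [← tendsto_nhds_unique hlim (tendsto_const_nhds.congr' (hbox.mono fun T hT => hT.symm))]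
  ring

theorem tendsto_side (C : ℝ) :
    Tendsto (fun T : ℝ => C * (1 + |T|) ^ (-(7 / 4 : ℝ))) atTop (𝓝 0) := by
  have h := ((tendsto_rpow_neg_atTop (show (0 : ℝ) < 7 / 4 by norm_num)).comp
    (tendsto_atTop_add_const_left _ 1 tendsto_abs_atTop_atTop)).const_mul C
  simpa using h

theorem norm_mul_side_le {C A : ℝ} {z w : ℂ} {T : ℝ} (hC : 0 ≤ C) (hz : ‖z‖ ≤ C / (1 + |T|) ^ 2)
    (hw : ‖w‖ ≤ A * (1 + |T|) ^ (1 / 4 : ℝ)) :
    ‖z * w‖ ≤ C * A * (1 + |T|) ^ (-(7 / 4 : ℝ)) := by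
  rw [norm_mul]
  refine (mul_le_mul hz hw (norm_nonneg _) (by positivity)).trans (le_of_eq ?_)
  rw [show -(7 / 4 : ℝ) = 1 / 4 - (2 : ℕ) by norm_num, Real.rpow_sub_natCast (by positivity)]
  ring

/-- **A holomorphic kernel.** -/
theorem integral_shift (h : IsTest g) {k : ℂ → ℂ} (hab : a ≤ b)
    (hk : ∀ s : ℂ, a ≤ s.re → s.re ≤ b → DifferentiableAt ℂ k s) {A : ℝ}
    (hle : ∀ s : ℂ, a ≤ s.re → s.re ≤ b → ‖k s‖ ≤ A * (1 + |s.im|) ^ (1 / 4 : ℝ)) :
    ∫ t : ℝ, testTransform g ((b : ℂ) + t * I) * k ((b : ℂ) + t * I) =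
      ∫ t : ℝ, testTransform g ((a : ℂ) + t * I) * k ((a : ℂ) + t * I) := by
  obtain ⟨C, hC, hΦ⟩ := exists_transform_le h (max |a| |b|)
  have hline : ∀ σ, a ≤ σ → σ ≤ b →
      Integrable fun t : ℝ => testTransform g ((σ : ℂ) + t * I) * k ((σ : ℂ) + t * I) :=
    fun σ h1 h2 => integrable_line_mul h σ (continuous_iff_continuousAt.2 fun t =>
      ContinuousAt.comp' (g := k) (f := fun u : ℝ => (σ : ℂ) + (u : ℂ) * I)
        (hk _ (by simpa using h1) (by simpa using h2)).continuousAt (by fun_prop))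
      fun t => by simpa using hle ((σ : ℂ) + t * I) (by simpa using h1) (by simpa using h2)
  have hmain := integral_lines_sub (H := fun s => testTransform g s * k s) (R := 0) hab
    ((eventually_ge_atTop 0).mono fun T hT => boxInt_eq_zero hab hT fun s h1 _ =>
      (FA.WeilExplicit.differentiable_testTransform h s).mul (hk s h1.1 h1.2))
    (tendsto_side (C * A)) ?_ (hline a le_rfl hab) (hline b hab le_rfl)
  · exact sub_eq_zero.1 ((mul_eq_zero.1 hmain).resolve_left I_ne_zero)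
  · refine Eventually.of_forall fun T u hu => ?_
    have hb : ∀ ε : ℝ, |ε| = |T| →
        ‖testTransform g ((u : ℂ) + ε * I) * k ((u : ℂ) + ε * I)‖ ≤
          C * A * (1 + |T|) ^ (-(7 / 4 : ℝ)) := fun ε hε => by
      have h1 := hΦ ((u : ℂ) + ε * I) (by simpa using abs_le_max_abs_abs hu.1 hu.2)
      have h2 := hle ((u : ℂ) + ε * I) (by simpa using hu.1) (by simpa using hu.2)
      rw [show ((u : ℂ) + ε * I).im = ε by simp, hε] at h1 h2
      exact norm_mul_side_le hC h1 h2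
    exact ⟨hb T rfl, hb (-T) (abs_neg T)⟩

theorem continuous_inv_sub {σ : ℝ} {ρ : ℂ} (hσ : σ ≠ ρ.re) :
    Continuous fun t : ℝ => ((σ : ℂ) + t * I - ρ)⁻¹ :=
  Continuous.inv₀ (by fun_prop) fun t e => hσ (by
    simpa [sub_eq_zero] using congrArg Complex.re e)

theorem norm_inv_sub_le {σ : ℝ} {ρ : ℂ} (hσ : σ ≠ ρ.re) (t : ℝ) :
    ‖((σ : ℂ) + t * I - ρ)⁻¹‖ ≤ |σ - ρ.re|⁻¹ := by
  rw [norm_inv]
  exact inv_anti₀ (abs_pos.2 (sub_ne_zero.2 hσ))
    (le_trans (by simp) (Complex.abs_re_le_norm ((σ : ℂ) + t * I - ρ)))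

theorem integrable_pole (h : IsTest g) {σ : ℝ} {ρ : ℂ} (hσ : σ ≠ ρ.re) :
    Integrable fun t : ℝ => testTransform g ((σ : ℂ) + t * I) * ((σ : ℂ) + t * I - ρ)⁻¹ :=
  integrable_line_mul h σ (continuous_inv_sub hσ) (A := |σ - ρ.re|⁻¹) fun t =>
    (norm_inv_sub_le hσ t).trans (le_mul_of_one_le_right (by positivity)
      (Real.one_le_rpow (le_add_of_nonneg_right (abs_nonneg t)) (by norm_num)))

/-- **A simple pole.** -/
theorem integral_pole_sub (h : IsTest g) {ρ : ℂ} (ha : a < ρ.re) (hb : ρ.re < b) :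
    (∫ t : ℝ, testTransform g ((b : ℂ) + t * I) * ((b : ℂ) + t * I - ρ)⁻¹) -
      (∫ t : ℝ, testTransform g ((a : ℂ) + t * I) * ((a : ℂ) + t * I - ρ)⁻¹) =
      2 * π * testTransform g ρ := by
  have hab : a ≤ b := by linarith
  obtain ⟨C, hC, hΦ⟩ := exists_transform_le h (max |a| |b|)
  have hbox : ∀ᶠ T : ℝ in atTop, boxInt (fun s => testTransform g s * (s - ρ)⁻¹) a b T =
      2 * π * I * testTransform g ρ := by
    filter_upwards [eventually_gt_atTop |ρ.im|] with T hT
    have hT0 : 0 ≤ T := (abs_nonneg _).trans hT.le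
    have h1 := boxInt_residue (φ := testTransform g) isOpen_univ
      (FA.WeilExplicit.differentiable_testTransform h).differentiableOn
      (fun s _ _ => Set.mem_univ s) hT0 ha hb hT.ne
    rw [if_pos hT] at h1
    simp only [div_eq_mul_inv] at h1
    exact h1
  have hmain := integral_lines_sub hab hbox (tendsto_side C) ?_
    (integrable_pole h ha.ne) (integrable_pole h hb.ne')
  · refine mul_left_cancel₀ I_ne_zero (hmain.trans ?_)
    ring
  · filter_upwards [eventually_ge_atTop (|ρ.im| + 1)] with T hT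
    intro u hu
    have hT' : |T| = T := abs_of_nonneg (by linarith [abs_nonneg ρ.im])
    have hb : ∀ ε : ℝ, |ε| = |T| →
        ‖testTransform g ((u : ℂ) + ε * I) * ((u : ℂ) + ε * I - ρ)⁻¹‖ ≤
          C * (1 + |T|) ^ (-(7 / 4 : ℝ)) := fun ε hε => by
      have h1 := hΦ ((u : ℂ) + ε * I) (by simpa using abs_le_max_abs_abs hu.1 hu.2)
      rw [show ((u : ℂ) + ε * I).im = ε by simp, hε] at h1
      have h2 : ‖((u : ℂ) + ε * I - ρ)⁻¹‖ ≤ 1 * (1 + |T|) ^ (1 / 4 : ℝ) := by
        rw [one_mul]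
        refine le_trans ?_ (Real.one_le_rpow (le_add_of_nonneg_right (abs_nonneg T)) (by norm_num))
        rw [norm_inv]
        refine inv_le_one_of_one_le₀ (le_trans ?_ (abs_im_le_norm _))
        simp only [sub_im, add_im, ofReal_im, mul_im, ofReal_re, I_re, I_im, mul_zero, mul_one,
          zero_add, add_zero]
        linarith [abs_sub_abs_le_abs_sub ε ρ.im, hε, hT']
      simpa using norm_mul_side_le hC h1 h2
    exact ⟨hb T rfl, hb (-T) (abs_neg T)⟩

end FA.SelbergWeil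

end
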