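import Fermat.Agent.WeilExplicit.Transform
import Mathlib.Analysis.Calculus.ContDiff.Convolution
import Mathlib.Analysis.SpecialFunctions.JapaneseBracket
import Mathlib.Analysis.Complex.RealDeriv

/-!
# Transforms of test functions on every vertical line

Decay in vertical strips, inversion on every line, the adjoint `g* u = conj (g (-u))`, convolution,
and the algebra of transforms of smooth test functions.
-/

set_option autoImplicit false

noncomputable section

open Complex MeasureTheory Filter Topology ContinuousLinearMap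
open scoped Real Convolution ContDiff ComplexConjugate
open FA.WeilExplicit (IsTest testTransform)
open FA.ZeroOrdinates (osc)

namespace FA.SelbergWeil

variable {g f : ℝ → ℂ}

/-- `conj (g (-u))`. -/
def starTest (g : ℝ → ℂ) (u : ℝ) : ℂ := conj (g (-u))

/-- `g` times `exp (w u)`. -/
def twistTest (g : ℝ → ℂ) (w : ℂ) (u : ℝ) : ℂ := g u * cexp (w * (u : ℂ))

/-- `∫ g v conj (g (v - u)) dv`. -/
def weilCorr (g : ℝ → ℂ) : ℝ → ℂ := g ⋆[mul ℝ ℂ, volume] starTest g

theorem hasCompactSupport_starTest (hg : HasCompactSupport g) :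
    HasCompactSupport (starTest g) :=
  (hg.comp_homeomorph (Homeomorph.neg ℝ)).comp_left (g := conj) (map_zero _)

theorem contDiff_starTest {n : WithTop ℕ∞} (hg : ContDiff ℝ n g) : ContDiff ℝ n (starTest g) :=
  (Complex.conjCLE.toContinuousLinearMap.contDiff).comp (hg.comp contDiff_neg)

theorem isTest_starTest (h : IsTest g) : IsTest (starTest g) :=
  ⟨contDiff_starTest h.1, hasCompactSupport_starTest h.2⟩

theorem contDiff_twistTest {n : WithTop ℕ∞} (hg : ContDiff ℝ n g) (w : ℂ) :
    ContDiff ℝ n (twistTest g w) :=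
  hg.mul ((contDiff_const.mul Complex.ofRealCLM.contDiff).cexp)

theorem hasCompactSupport_twistTest (hg : HasCompactSupport g) (w : ℂ) :
    HasCompactSupport (twistTest g w) :=
  hg.mul_right

theorem isTest_twistTest (h : IsTest g) (w : ℂ) : IsTest (twistTest g w) :=
  ⟨contDiff_twistTest h.1 w, hasCompactSupport_twistTest h.2 w⟩

theorem testTransform_twistTest (g : ℝ → ℂ) (w s : ℂ) :
    testTransform (twistTest g w) s = testTransform g (s + w) := by
  refine integral_congr_ae (Eventually.of_forall fun u => ?_)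
  simp only [twistTest, mul_assoc, ← Complex.exp_add]
  ring_nf

theorem testTransform_starTest (g : ℝ → ℂ) (s : ℂ) :
    testTransform (starTest g) s = conj (testTransform g (1 - conj s)) := by
  rw [testTransform, testTransform, ← integral_conj,
    ← integral_neg_eq_self (fun u : ℝ => conj (g u * cexp ((1 - conj s - 1 / 2) * (u : ℂ))))]
  refine integral_congr_ae (Eventually.of_forall fun u => ?_)
  simp only [starTest, map_mul, ← Complex.exp_conj, map_sub, map_one, map_div₀, map_ofNat,
    Complex.conj_conj, conj_ofReal]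
  push_cast
  ring_nf

/-- **The transform of a convolution.** -/
theorem testTransform_convolution (hf : Continuous f) (hf' : HasCompactSupport f)
    (hg : Continuous g) (hg' : HasCompactSupport g) (s : ℂ) :
    testTransform (f ⋆[mul ℝ ℂ, volume] g) s = testTransform f s * testTransform g s := by
  rw [testTransform, testTransform, testTransform]
  have h := integral_convolution (mul ℝ ℂ)
    (FA.WeilExplicit.integrable_mul_exp hf hf' (s - 1 / 2))
    (FA.WeilExplicit.integrable_mul_exp hg hg' (s - 1 / 2)) (μ := volume)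
  rw [mul_apply'] at h
  refine Eq.trans (integral_congr_ae (Eventually.of_forall fun u => ?_)) h
  simp only [convolution_def, mul_apply', ← integral_mul_const]
  refine integral_congr_ae (Eventually.of_forall fun v => ?_)
  have e : cexp ((s - 1 / 2) * (u : ℂ)) =
      cexp ((s - 1 / 2) * (v : ℂ)) * cexp ((s - 1 / 2) * ((u - v : ℝ) : ℂ)) := by
    rw [← Complex.exp_add]
    congr 1
    push_cast
    ring
  simp only [e]
  ring

theorem weilCorr_apply (g : ℝ → ℂ) (u : ℝ) : weilCorr g u = ∫ v : ℝ, g v * conj (g (v - u)) := by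
  rw [weilCorr, convolution_def]
  exact integral_congr_ae (Eventually.of_forall fun v => by simp [starTest, neg_sub])

theorem weilCorr_neg (g : ℝ → ℂ) (u : ℝ) : weilCorr g (-u) = conj (weilCorr g u) := by
  rw [weilCorr_apply, weilCorr_apply, ← integral_conj,
    ← integral_sub_right_eq_self (fun v : ℝ => g v * conj (g (v - -u))) u]
  refine integral_congr_ae (Eventually.of_forall fun v => ?_)
  simp only [sub_neg_eq_add, sub_add_cancel, map_mul, Complex.conj_conj]
  ring

theorem isTest_weilCorr (h : IsTest g) : IsTest (weilCorr g) :=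
  ⟨(hasCompactSupport_starTest h.2).contDiff_convolution_right (n := 2) _
      h.continuous.locallyIntegrable (contDiff_starTest h.1),
    h.2.convolution _ (hasCompactSupport_starTest h.2)⟩

theorem testTransform_weilCorr (h : IsTest g) (s : ℂ) : testTransform (weilCorr g) s =
    testTransform g s * conj (testTransform g (1 - conj s)) := by
  rw [weilCorr, testTransform_convolution h.continuous h.2 (isTest_starTest h).continuous
    (hasCompactSupport_starTest h.2), testTransform_starTest]

/-- **Decay in every vertical strip.** -/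
theorem exists_transform_le (h : IsTest g) (R : ℝ) : ∃ C, 0 ≤ C ∧ ∀ s : ℂ, |s.re| ≤ R →
    ‖testTransform g s‖ ≤ C / (1 + |s.im|) ^ 2 := by
  have key : ∀ {k : ℝ → ℂ}, Continuous k → HasCompactSupport k → ∃ C, 0 ≤ C ∧
      ∀ a : ℂ, |a.re| ≤ R + 1 / 2 → ‖∫ u : ℝ, k u * cexp (a * (u : ℂ))‖ ≤ C := fun {k} hk hk' => by
    refine ⟨∫ u : ℝ, ‖k u‖ * Real.exp ((R + 1 / 2) * |u|), integral_nonneg fun u => by positivity,
      fun a ha => norm_integral_le_of_norm_le
        ((hk.norm.mul (by fun_prop)).integrable_of_hasCompactSupport hk'.norm.mul_right)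
        (Eventually.of_forall fun u => ?_)⟩
    rw [norm_mul, Complex.norm_exp]
    gcongr
    simp only [mul_re, ofReal_re, ofReal_im, mul_zero, sub_zero]
    refine (le_abs_self _).trans ?_
    rw [abs_mul]
    exact mul_le_mul_of_nonneg_right ha (abs_nonneg u)
  have hd : ContDiff ℝ 1 (deriv g) := contDiff_succ_iff_deriv.1 (show ContDiff ℝ (1 + 1) g from
    by simpa [one_add_one_eq_two] using h.1) |>.2.2
  obtain ⟨C₀, hC₀, h0⟩ := key h.continuous h.2
  obtain ⟨C₂, hC₂, h2⟩ := key (hd.continuous_deriv le_rfl) h.2.deriv.deriv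
  refine ⟨2 * (C₀ + C₂), by positivity, fun s hs => ?_⟩
  have ha : |(s - 1 / 2).re| ≤ R + 1 / 2 := by
    simp only [sub_re, one_div, inv_re, re_ofNat, normSq_ofNat]
    rw [abs_le] at hs ⊢
    constructor <;> norm_num <;> linarith
  have e : (s - 1 / 2) * ((s - 1 / 2) * testTransform g s) =
      ∫ u : ℝ, deriv (deriv g) u * cexp ((s - 1 / 2) * (u : ℂ)) := by
    rw [testTransform, FA.WeilExplicit.mul_integral_exp (h.1.of_le (by norm_num)) h.2, mul_neg,
      FA.WeilExplicit.mul_integral_exp hd h.2.deriv, neg_neg]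
  have h3 := h2 _ ha
  rw [← e, norm_mul, norm_mul] at h3
  have h4 : |s.im| * |s.im| ≤ ‖s - 1 / 2‖ * ‖s - 1 / 2‖ := by
    have h5 := abs_im_le_norm (s - 1 / 2)
    rw [show (s - 1 / 2).im = s.im by simp] at h5
    exact mul_le_mul h5 h5 (abs_nonneg _) (norm_nonneg _)
  have h5 : ‖testTransform g s‖ ≤ C₀ := h0 _ ha
  rw [le_div_iff₀ (by positivity)]
  nlinarith [mul_le_mul_of_nonneg_left h4 (norm_nonneg (testTransform g s)),
    norm_nonneg (testTransform g s), sq_nonneg (|s.im| - 1)]

theorem continuous_line (h : IsTest g) (σ : ℝ) :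
    Continuous fun t : ℝ => testTransform g ((σ : ℂ) + t * I) :=
  FA.WeilExplicit.continuous_testTransform_line h σ

theorem integrable_rpow_weight {r : ℝ} (hr : 1 < r) :
    Integrable fun t : ℝ => (1 + |t|) ^ (-r) := by
  simpa [Real.norm_eq_abs] using integrable_one_add_norm (E := ℝ) (μ := volume) (r := r)
    (by simpa using hr)

/-- A continuous multiple of the transform by `O ((1 + |t|) ^ (1/4))` is integrable on a line. -/
theorem integrable_line_mul (h : IsTest g) (σ : ℝ) {k : ℝ → ℂ} (hk : Continuous k) {A : ℝ}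
    (hle : ∀ t, ‖k t‖ ≤ A * (1 + |t|) ^ (1 / 4 : ℝ)) :
    Integrable fun t : ℝ => testTransform g ((σ : ℂ) + t * I) * k t := by
  obtain ⟨C, hC, hΦ⟩ := exists_transform_le h |σ|
  refine ((integrable_rpow_weight (r := 7 / 4) (by norm_num)).const_mul (C * A)).mono'
    ((continuous_line h σ).mul hk).aestronglyMeasurable (Eventually.of_forall fun t => ?_)
  have h1 := hΦ ((σ : ℂ) + t * I) (by simp)
  rw [show ((σ : ℂ) + t * I).im = t by simp] at h1
  rw [norm_mul]
  refine (mul_le_mul h1 (hle t) (norm_nonneg _) (by positivity)).trans (le_of_eq ?_)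
  rw [show -(7 / 4 : ℝ) = 1 / 4 - (2 : ℕ) by norm_num, Real.rpow_sub_natCast (by positivity)]
  ring

theorem integrable_line (h : IsTest g) (σ : ℝ) :
    Integrable fun t : ℝ => testTransform g ((σ : ℂ) + t * I) := by
  refine (integrable_line_mul h σ (k := fun _ => 1) continuous_const (A := 1) fun t => ?_).congr
    (Eventually.of_forall fun t => mul_one _)
  rw [norm_one, one_mul]
  exact Real.one_le_rpow (le_add_of_nonneg_right (abs_nonneg t)) (by norm_num)

/-- **Inversion on every line.** -/
theorem integral_line_osc (h : IsTest g) (σ v : ℝ) :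
    ∫ t : ℝ, testTransform g ((σ : ℂ) + t * I) * osc (-v) t =
      2 * π * (g v * ((Real.exp ((σ - 1 / 2) * v) : ℝ) : ℂ)) := by
  have h1 := FA.WeilExplicit.integral_testTransform_osc
    (isTest_twistTest h ((σ - 1 / 2 : ℝ) : ℂ)) (σ := 1 / 2) (by norm_num) (by norm_num) v
  rw [sub_self, zero_mul, Real.exp_zero, ofReal_one, mul_one] at h1
  simp only [testTransform_twistTest] at h1
  refine Eq.trans (integral_congr_ae (Eventually.of_forall fun t => ?_)) (h1.trans ?_)
  · simp only
    congr 2
    push_cast
    ring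
  · rw [twistTest, ofReal_exp, ofReal_mul]

/-- The integral does not depend on the line. -/
theorem integral_line_eq (h : IsTest g) (σ : ℝ) :
    ∫ t : ℝ, testTransform g ((σ : ℂ) + t * I) = 2 * π * g 0 := by
  have := integral_line_osc h σ 0
  simpa [osc] using this

/-- A transform of a smooth test function. -/
def IsSmoothTransform (F : ℂ → ℂ) : Prop :=
  ∃ g : ℝ → ℂ, ContDiff ℝ ∞ g ∧ HasCompactSupport g ∧ F = testTransform g

namespace IsSmoothTransform

variable {F G : ℂ → ℂ}

theorem isTest (hg : ContDiff ℝ ∞ g) (hs : HasCompactSupport g) : IsTest g :=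
  ⟨hg.of_le (WithTop.coe_le_coe.2 le_top), hs⟩

theorem exists_test (hF : IsSmoothTransform F) :
    ∃ g, IsTest g ∧ ContDiff ℝ ∞ g ∧ F = testTransform g := by
  obtain ⟨g, h1, h2, h3⟩ := hF
  exact ⟨g, isTest h1 h2, h1, h3⟩

theorem const_mul (hF : IsSmoothTransform F) (c : ℂ) :
    IsSmoothTransform fun s => c * F s := by
  obtain ⟨g, h1, h2, rfl⟩ := hF
  refine ⟨fun u => c * g u, contDiff_const.mul h1, h2.mul_left, funext fun s => ?_⟩
  simp only [testTransform, mul_assoc, integral_const_mul]

theorem add (hF : IsSmoothTransform F) (hG : IsSmoothTransform G) :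
    IsSmoothTransform fun s => F s + G s := by
  obtain ⟨f, f1, f2, rfl⟩ := hF
  obtain ⟨g, g1, g2, rfl⟩ := hG
  refine ⟨fun u => f u + g u, f1.add g1, f2.add g2, funext fun s => ?_⟩
  simp only [testTransform, add_mul]
  rw [integral_add (FA.WeilExplicit.integrable_mul_exp f1.continuous f2 _)
    (FA.WeilExplicit.integrable_mul_exp g1.continuous g2 _)]

theorem mul (hF : IsSmoothTransform F) (hG : IsSmoothTransform G) :
    IsSmoothTransform fun s => F s * G s := by
  obtain ⟨f, f1, f2, rfl⟩ := hF
  obtain ⟨g, g1, g2, rfl⟩ := hG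
  exact ⟨f ⋆[ContinuousLinearMap.mul ℝ ℂ, volume] g,
    g2.contDiff_convolution_right (n := ⊤) _ f1.continuous.locallyIntegrable g1,
    f2.convolution _ g2,
    funext fun s => (testTransform_convolution f1.continuous f2 g1.continuous g2 s).symm⟩

theorem comp_add (hF : IsSmoothTransform F) (w : ℂ) : IsSmoothTransform fun s => F (s + w) := by
  obtain ⟨g, h1, h2, rfl⟩ := hF
  exact ⟨twistTest g w, contDiff_twistTest h1 w, hasCompactSupport_twistTest h2 w,
    funext fun s => (testTransform_twistTest g w s).symm⟩

theorem sub_mul (hF : IsSmoothTransform F) (z : ℂ) :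
    IsSmoothTransform fun s => (s - z) * F s := by
  obtain ⟨g, h1, h2, rfl⟩ := hF
  refine ⟨fun u => -deriv g u + (1 / 2 - z) * g u,
    ((contDiff_infty_iff_deriv.1 h1).2).neg.add (contDiff_const.mul h1),
    h2.deriv.neg.add h2.mul_left, funext fun s => ?_⟩
  have h3 := FA.WeilExplicit.mul_integral_exp (h1.of_le (WithTop.coe_le_coe.2 le_top)) h2
    (s - 1 / 2)
  simp only [testTransform, add_mul, neg_mul, mul_assoc]
  rw [integral_add, integral_neg, integral_const_mul, ← h3]
  · ring
  · exact (FA.WeilExplicit.integrable_mul_exp (h1.continuous_deriv (by norm_num)) h2.deriv _).neg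
  · exact (FA.WeilExplicit.integrable_mul_exp h1.continuous h2 _).const_mul _

theorem prod_sub_mul (hF : IsSmoothTransform F) (S : Finset ℂ) :
    IsSmoothTransform fun s => (∏ z ∈ S, (s - z)) * F s := by
  classical
  induction S using Finset.induction_on with
  | empty => simpa using hF
  | insert z S hz ih =>
    simp only [Finset.prod_insert hz, mul_assoc]
    exact ih.sub_mul z

theorem pow_mul (hF : IsSmoothTransform F) (hG : IsSmoothTransform G) (n : ℕ) :
    IsSmoothTransform fun s => F s * G s ^ n := by
  induction n with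
  | zero => simpa using hF
  | succ n ih =>
    simp only [pow_succ, ← mul_assoc]
    exact ih.mul hG

end IsSmoothTransform

end FA.SelbergWeil

end
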